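import Fermat.Agent.Semistable.Lattice
import Mathlib.RingTheory.Valuation.ValuationSubring

/-!
# Scales of a branch compared through the valuation of the constants

`Arch π` makes the constants archimedean.  The lemmas compare membership and reduction of a
function at two scales through their valuations; `valuation_eq_of_red_ne_zero` says that the
exact scale is unique.
-/

set_option autoImplicit false

noncomputable section

open AlgebraicCurve

namespace FLTAgent.Semistable

variable {L k : Type*} [Field L] [Field k] {A : ValuationSubring L} {π : A →+* k}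

/-- Every element of the maximal ideal has powers divisible by any nonzero element. -/
def Arch (π : A →+* k) : Prop := ∀ a b : A, π a = 0 → b ≠ 0 → ∃ N, b ∣ a ^ N

/-- An element of valuation below one has zero residue. -/
theorem π_eq_zero_of_lt_one (hπ : Function.Surjective π) {a : A}
    (ha : A.valuation (a : L) < 1) : π a = 0 :=
  Branch.π_eq_zero_of_not_isUnit hπ fun hu => ha.ne ((A.valuation_eq_one_iff a).mp hu)

theorem valuation_lt_one_of_π_eq_zero {a : A} (ha : π a = 0) : A.valuation (a : L) < 1 := by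
  refine lt_of_le_of_ne (A.valuation_le_one a) fun h => ?_
  have := ((A.valuation_eq_one_iff a).mpr h).map π
  rw [ha] at this
  exact not_isUnit_zero this

theorem π_ne_zero_of_eq_one {a : A} (ha : A.valuation (a : L) = 1) : π a ≠ 0 := fun h =>
  (valuation_lt_one_of_π_eq_zero h).ne ha

/-- A quotient by an element of larger valuation is integral. -/
theorem div_mem_of_valuation_le {x y : L} (hy : y ≠ 0) (h : A.valuation x ≤ A.valuation y) :
    x / y ∈ A := by
  rw [← A.valuation_le_one_iff, map_div₀]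
  exact (div_le_one₀ (zero_lt_iff.mpr ((Valuation.ne_zero_iff _).mpr hy))).mpr h

theorem Arch.exists_pow_le (harch : Arch π) (hπ : Function.Surjective π) {t b : L}
    (ht : A.valuation t < 1) (hb : b ≠ 0) : ∃ N : ℕ, A.valuation t ^ N ≤ A.valuation b := by
  rcases A.mem_or_inv_mem b with hbA | hbA
  · have htA : t ∈ A := (A.valuation_le_one_iff t).mp ht.le
    obtain ⟨N, c, hc⟩ := harch ⟨t, htA⟩ ⟨b, hbA⟩ (π_eq_zero_of_lt_one hπ ht)
      (fun h => hb (congrArg Subtype.val h))
    refine ⟨N, ?_⟩
    have hc' : t ^ N = b * (c : L) := congrArg Subtype.val hc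
    rw [← map_pow, hc', map_mul]
    exact mul_le_of_le_one_right' (A.valuation_le_one c)
  · refine ⟨0, ?_⟩
    rw [pow_zero]
    have := (A.valuation_le_one_iff b⁻¹).mpr hbA
    rwa [map_inv₀, inv_le_one₀ (zero_lt_iff.mpr ((Valuation.ne_zero_iff _).mpr hb))] at this

theorem valuation_zpow_injective {t : L} (ht0 : t ≠ 0) (ht : A.valuation t < 1) {i j : ℤ}
    (h : A.valuation (t ^ i) = A.valuation (t ^ j)) : i = j := by
  rw [map_zpow₀, map_zpow₀] at h
  exact zpow_right_injective₀ (zero_lt_iff.mpr ((Valuation.ne_zero_iff _).mpr ht0)) ht.ne h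

/-- Powers of `t` bounded above have exponents bounded below. -/
theorem Arch.exists_le_of_zpow_le (harch : Arch π) (hπ : Function.Surjective π) {t b : L}
    (ht0 : t ≠ 0) (ht : A.valuation t < 1) (hb : b ≠ 0) :
    ∃ z₀ : ℤ, ∀ z : ℤ, A.valuation t ^ z ≤ A.valuation b → z₀ ≤ z := by
  obtain ⟨N, hN⟩ := harch.exists_pow_le hπ ht (inv_ne_zero hb)
  refine ⟨-(N : ℤ), fun z hz => ?_⟩
  by_contra hlt
  push Not at hlt
  have hv : 0 < A.valuation t := zero_lt_iff.mpr ((Valuation.ne_zero_iff _).mpr ht0)
  have h1 : A.valuation t ^ (-(N : ℤ)) < A.valuation t ^ z :=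
    zpow_lt_zpow_right_of_lt_one₀ hv ht hlt
  rw [map_inv₀] at hN
  rw [zpow_neg, zpow_natCast] at h1
  have h2 : A.valuation b ≤ (A.valuation t ^ N)⁻¹ :=
    (le_inv_comm₀ (zero_lt_iff.mpr ((Valuation.ne_zero_iff _).mpr hb)) (pow_pos hv N)).mpr hN
  exact absurd (h1.trans_le hz) h2.not_gt

variable {F Fb : Type*} [Field F] [Field Fb] [Algebra L F] [Algebra k Fb]

namespace Branch

variable (B : Branch A π F Fb)

theorem red_zero_scale (u : F) : B.red 0 u = 0 := by
  rw [B.red_eq_res B.O.zero_mem (zero_smul L u)]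
  exact map_zero _

theorem scale_ne_zero {x : L} {u : F} (h : B.red x u ≠ 0) : x ≠ 0 := fun h0 =>
  h (h0 ▸ B.red_zero_scale u)

theorem mem_of_le {x y : L} {u : F} (hy : y ≠ 0) (h : A.valuation x ≤ A.valuation y)
    (hm : B.Mem y u) : B.Mem x u := by
  have := Branch.Mem.smul B hm ⟨x / y, div_mem_of_valuation_le hy h⟩
  rwa [B.mem_smul_iff, mul_div_cancel₀ _ hy] at this

/-- Reduction at a smaller scale is a multiple of the reduction. -/
theorem red_eq_smul_of_le {x y : L} {u : F} (hy : y ≠ 0) (h : A.valuation x ≤ A.valuation y)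
    (hm : B.Mem y u) :
    B.red x u = π ⟨x / y, div_mem_of_valuation_le hy h⟩ • B.red y u := by
  have hx : B.Mem (y * (x / y)) u := by
    rw [mul_div_cancel₀ _ hy]; exact B.mem_of_le hy h hm
  rw [← B.red_smul hm ⟨_, div_mem_of_valuation_le hy h⟩, B.red_smul_eq hx, mul_div_cancel₀ _ hy]

theorem red_eq_zero_of_lt (hπ : Function.Surjective π) {x y : L} {u : F} (hy : y ≠ 0)
    (h : A.valuation x < A.valuation y) (hm : B.Mem y u) : B.red x u = 0 := by
  rw [B.red_eq_smul_of_le hy h.le hm, π_eq_zero_of_lt_one hπ ?_, zero_smul]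
  rw [map_div₀]
  exact (div_lt_one₀ (zero_lt_iff.mpr ((Valuation.ne_zero_iff _).mpr hy))).mpr h

theorem red_ne_zero_of_eq {x y : L} {u : F} (hy : y ≠ 0) (h : A.valuation x = A.valuation y)
    (hm : B.Mem y u) (hr : B.red y u ≠ 0) : B.red x u ≠ 0 := by
  rw [B.red_eq_smul_of_le hy h.le hm]
  refine smul_ne_zero (π_ne_zero_of_eq_one ?_) hr
  rw [map_div₀, h, div_self ((Valuation.ne_zero_iff _).mpr hy)]

theorem valuation_le_of_red_ne_zero (hπ : Function.Surjective π) {x y : L} {u : F}
    (hx : B.Mem x u) (hy : B.red y u ≠ 0) : A.valuation x ≤ A.valuation y := by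
  by_contra h
  push Not at h
  have hx0 : x ≠ 0 := fun h0 => by simp [h0] at h
  exact hy (B.red_eq_zero_of_lt hπ hx0 h hx)

theorem valuation_eq_of_red_ne_zero (hπ : Function.Surjective π) {x y : L} {u : F}
    (hx : B.Mem x u) (hx' : B.red x u ≠ 0) (hy : B.Mem y u) (hy' : B.red y u ≠ 0) :
    A.valuation x = A.valuation y :=
  le_antisymm (B.valuation_le_of_red_ne_zero hπ hx hy')
    (B.valuation_le_of_red_ne_zero hπ hy hx')

end Branch

end FLTAgent.Semistable
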