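import Fermat.Agent.Semistable.Newton
import Fermat.Agent.SemistableNodes.Scale

/-!
# Widths of the nodes

A function vanishing on one branch and invertible on the other (`NodeUnit`) measures the nodes
by `width₁`, `width₂`: it bounds and links the orders of reductions at every node, at every pair
of scales (`exists_glued`).
-/

set_option autoImplicit false

noncomputable section

open AlgebraicCurve FLTAgent.FFRiemannRoch FLTAgent.FFBasic

namespace FLTAgent.Semistable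

variable {L k : Type*} [Field L] [Field k] {A : ValuationSubring L} {π : A →+* k}
variable {F F₁ F₂ : Type*} [Field F] [Field F₁] [Field F₂]
  [Algebra L F] [Algebra k F₁] [Algebra k F₂] {ι : Type*} [Fintype ι]

namespace PairReduction

/-- Two integral functions with product a small constant, each invertible on one branch. -/
structure NodeUnit (C : PairReduction A π F F₁ F₂ ι) where
  Q : L
  Q_ne : Q ≠ 0
  Q_lt : A.valuation Q < 1
  h : F
  h' : F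
  mul_eq : h * h' = algebraMap L F Q
  h_mem₁ : h ∈ C.b₁.O
  h_mem₂ : h ∈ C.b₂.O
  h'_mem₁ : h' ∈ C.b₁.O
  h'_mem₂ : h' ∈ C.b₂.O
  deg : ℕ
  h_rr : h ∈ riemannRochSpace (deg • C.E)
  h'_rr : h' ∈ riemannRochSpace (deg • C.E)
  res_ne₁ : C.b₁.res ⟨h, h_mem₁⟩ ≠ 0
  res_ne₂ : C.b₂.res ⟨h', h'_mem₂⟩ ≠ 0

variable {C : PairReduction A π F F₁ F₂ ι}

namespace NodeUnit

variable (U : NodeUnit C)

/-- The reduction of `h` on the first branch. -/
def bar₁ : F₁ := C.b₁.res ⟨U.h, U.h_mem₁⟩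

/-- The reduction of `h'` on the second branch. -/
def bar₂ : F₂ := C.b₂.res ⟨U.h', U.h'_mem₂⟩

theorem bar₁_ne : U.bar₁ ≠ 0 := U.res_ne₁

theorem bar₂_ne : U.bar₂ ≠ 0 := U.res_ne₂

/-- The order of the node unit at a node, on the first branch. -/
def width₁ (s : ι) : ℤ := (C.node₁ s).ord U.bar₁

/-- The order of the node unit at a node, on the second branch. -/
def width₂ (s : ι) : ℤ := (C.node₂ s).ord U.bar₂

include U in
theorem exists_zero : ∃ t : A, t ≠ 0 ∧ π t = 0 := by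
  have hQ : U.Q ∈ A := (A.valuation_le_one_iff U.Q).mp U.Q_lt.le
  exact ⟨⟨U.Q, hQ⟩, fun h => U.Q_ne (congrArg Subtype.val h),
    π_eq_zero_of_lt_one C.π_surj U.Q_lt⟩

theorem inv_smul_h : U.Q⁻¹ • U.h = U.h'⁻¹ := by
  have h0 : U.h' ≠ 0 := fun h => U.bar₂_ne (by
    rw [bar₂, show (⟨U.h', U.h'_mem₂⟩ : C.b₂.O) = 0 from Subtype.ext h, map_zero])
  rw [Algebra.smul_def, map_inv₀, ← U.mul_eq]
  have h1 : U.h ≠ 0 := fun h => (map_ne_zero (algebraMap L F)).mpr U.Q_ne (by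
    rw [← U.mul_eq, h, zero_mul])
  field_simp

theorem inv_smul_h' : U.Q⁻¹ • U.h' = U.h⁻¹ := by
  have h0 : U.h ≠ 0 := fun h => U.bar₁_ne (by
    rw [bar₁, show (⟨U.h, U.h_mem₁⟩ : C.b₁.O) = 0 from Subtype.ext h, map_zero])
  rw [Algebra.smul_def, map_inv₀, ← U.mul_eq]
  have h1 : U.h' ≠ 0 := fun h => (map_ne_zero (algebraMap L F)).mpr U.Q_ne (by
    rw [← U.mul_eq, h, mul_zero])
  field_simp

theorem h_scaled : C.Mem (1, U.Q⁻¹) U.h ∧ C.red (1, U.Q⁻¹) U.h = (U.bar₁, U.bar₂⁻¹) := by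
  obtain ⟨i, hi⟩ := (C.b₂.isUnit_of_res_ne_zero C.π_surj U.res_ne₂).exists_right_inv
  have hi' : U.h' * (i : F) = 1 := congrArg Subtype.val hi
  have he : U.Q⁻¹ • U.h = (i : F) := by rw [U.inv_smul_h, inv_eq_of_mul_eq_one_right hi']
  have hres : C.b₂.res i = U.bar₂⁻¹ := by
    refine (inv_eq_of_mul_eq_one_right ?_).symm
    rw [bar₂, ← map_mul, hi, map_one]
  refine ⟨⟨show (1 : L) • U.h ∈ C.b₁.O by rw [one_smul]; exact U.h_mem₁,
    show U.Q⁻¹ • U.h ∈ C.b₂.O by rw [he]; exact i.2⟩, Prod.ext (C.b₁.red_one U.h_mem₁) ?_⟩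
  exact (C.b₂.red_eq_res i.2 he).trans hres

theorem h'_scaled : C.Mem (U.Q⁻¹, 1) U.h' ∧ C.red (U.Q⁻¹, 1) U.h' = (U.bar₁⁻¹, U.bar₂) := by
  obtain ⟨i, hi⟩ := (C.b₁.isUnit_of_res_ne_zero C.π_surj U.res_ne₁).exists_right_inv
  have hi' : U.h * (i : F) = 1 := congrArg Subtype.val hi
  have he : U.Q⁻¹ • U.h' = (i : F) := by rw [U.inv_smul_h', inv_eq_of_mul_eq_one_right hi']
  have hres : C.b₁.res i = U.bar₁⁻¹ := by
    refine (inv_eq_of_mul_eq_one_right ?_).symm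
    rw [bar₁, ← map_mul, hi, map_one]
  refine ⟨⟨show U.Q⁻¹ • U.h' ∈ C.b₁.O by rw [he]; exact i.2,
    show (1 : L) • U.h' ∈ C.b₂.O by rw [one_smul]; exact U.h'_mem₂⟩,
    Prod.ext ?_ (C.b₂.red_one U.h'_mem₂)⟩
  exact (C.b₁.red_eq_res i.2 he).trans hres

variable [IsAlgClosed k] [IsFunctionField k F₁] [IsFunctionField k F₂]

omit [IsAlgClosed k] [IsFunctionField k F₁] [IsFunctionField k F₂] in
theorem width₁_pos (s : ι) : 0 < U.width₁ s := by
  have h2 : C.b₂.res ⟨U.h, U.h_mem₂⟩ = 0 := by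
    have := C.b₂.red_eq_zero_of_lt C.π_surj (x := 1) (y := U.Q⁻¹) (inv_ne_zero U.Q_ne)
      (by rw [map_one, map_inv₀]
          exact one_lt_inv₀ (zero_lt_iff.mpr ((Valuation.ne_zero_iff _).mpr U.Q_ne)) |>.mpr U.Q_lt)
      U.h_scaled.1.2
    rwa [C.b₂.red_one U.h_mem₂] at this
  obtain ⟨c, hc₁, hc₂⟩ := C.compat U.deg U.h U.h_mem₁ U.h_mem₂ U.h_rr s
  rw [h2] at hc₂
  rw [hc₂.unique hasValue_zero, hasValue_zero_iff, mem_ball_iff_ord] at hc₁
  have := hc₁.resolve_left U.bar₁_ne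
  show 0 < (C.node₁ s).ord (C.b₁.res ⟨U.h, U.h_mem₁⟩)
  omega

omit [IsAlgClosed k] [IsFunctionField k F₁] [IsFunctionField k F₂] in
theorem prod_mk_pow {α β : Type*} [Monoid α] [Monoid β] (a : α) (b : β) (n : ℕ) :
    ((a, b) : α × β) ^ n = (a ^ n, b ^ n) := Prod.ext (Prod.pow_fst _ n) (Prod.pow_snd _ n)

/-- Powers of the node unit bring any rescaled function to equal scales on both branches. -/
theorem exists_glued {n b : ℕ} {z : ℤ} {G : L × L} (hG₁ : G.1 ≠ 0) (hG₂ : G.2 ≠ 0) {w : F}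
    (hw : w ∈ riemannRochSpace (n • C.E)) (hm : C.Mem G w)
    (hz : A.valuation (G.2 ^ b) = A.valuation (G.1 ^ b * U.Q ^ z)) :
    ∃ (n' : ℕ) (κ : k), κ ≠ 0 ∧
      ((C.red G w).1 ^ b * U.bar₁ ^ z, κ • ((C.red G w).2 ^ b * U.bar₂ ^ (-z))) ∈
        C.glued n' 1 := by
  set i := z.toNat with hi
  set l := (-z).toNat with hl
  have hil : z = (i : ℤ) - l := by omega
  set S : L × L := G ^ b * ((1, U.Q⁻¹) : L × L) ^ i * ((U.Q⁻¹, 1) : L × L) ^ l with hS
  set W := w ^ b * U.h ^ i * U.h' ^ l with hW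
  have hWm : C.Mem S W := ((hm.pow b).mul (U.h_scaled.1.pow i)).mul (U.h'_scaled.1.pow l)
  have hWr : C.red S W = ((C.red G w).1 ^ b * U.bar₁ ^ z, (C.red G w).2 ^ b * U.bar₂ ^ (-z)) := by
    rw [hS, hW, red_mul ((hm.pow b).mul (U.h_scaled.1.pow i)) (U.h'_scaled.1.pow l),
      red_mul (hm.pow b) (U.h_scaled.1.pow i), red_pow hm, red_pow U.h_scaled.1,
      red_pow U.h'_scaled.1, U.h_scaled.2, U.h'_scaled.2, prod_mk_pow, prod_mk_pow]
    refine Prod.ext ?_ ?_ <;>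
      simp only [Prod.fst_mul, Prod.snd_mul, Prod.pow_fst, Prod.pow_snd, mul_assoc, inv_pow]
    · rw [hil, zpow_sub₀ U.bar₁_ne, zpow_natCast, zpow_natCast, div_eq_mul_inv]
    · rw [hil, neg_sub, zpow_sub₀ U.bar₂_ne, zpow_natCast, zpow_natCast, div_eq_mul_inv,
        mul_comm (U.bar₂ ^ l)]
  have hQ := U.Q_ne
  have hS₁ : S.1 = G.1 ^ b * (U.Q ^ l)⁻¹ := by simp [hS, inv_pow]
  have hS₂ : S.2 = G.2 ^ b * (U.Q ^ i)⁻¹ := by simp [hS, inv_pow]
  have hS₂0 : S.2 ≠ 0 := by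
    rw [hS₂]; exact mul_ne_zero (pow_ne_zero b hG₂) (inv_ne_zero (pow_ne_zero i hQ))
  have hS₁0 : S.1 ≠ 0 := by
    rw [hS₁]; exact mul_ne_zero (pow_ne_zero b hG₁) (inv_ne_zero (pow_ne_zero l hQ))
  have hval : A.valuation S.1 = A.valuation S.2 := by
    rw [hS₁, hS₂, map_mul _ (G.2 ^ b), hz, ← map_mul, hil, zpow_sub₀ hQ, zpow_natCast,
      zpow_natCast]
    congr 1
    field_simp
  have hmem : C.Mem (1, 1) (S.1 • W) := by
    refine ⟨C.b₁.mem_smul_iff.mpr ?_, C.b₂.mem_smul_iff.mpr ?_⟩ <;> rw [one_mul]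
    · exact hWm.1
    · exact C.b₂.mem_of_le hS₂0 hval.le hWm.2
  have hrr : S.1 • W ∈ riemannRochSpace ((b * n + i * U.deg + l * U.deg) • C.E) := by
    refine Submodule.smul_mem _ _ ?_
    rw [add_nsmul, add_nsmul, mul_nsmul', mul_nsmul', mul_nsmul']
    exact mul_mem_riemannRochSpace (mul_mem_riemannRochSpace (pow_mem_riemannRochSpace hw b)
      (pow_mem_riemannRochSpace U.h_rr i)) (pow_mem_riemannRochSpace U.h'_rr l)
  refine ⟨b * n + i * U.deg + l * U.deg, π ⟨S.1 / S.2, div_mem_of_valuation_le hS₂0 hval.le⟩,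
      π_ne_zero_of_eq_one
    (by rw [map_div₀, hval, div_self ((Valuation.ne_zero_iff _).mpr hS₂0)]), ?_⟩
  have e : C.red (1, 1) (S.1 • W) = ((C.red S W).1,
      π ⟨S.1 / S.2, div_mem_of_valuation_le hS₂0 hval.le⟩ • (C.red S W).2) := by
    refine Prod.ext ?_ ?_
    · show C.b₁.red 1 (S.1 • W) = C.b₁.red S.1 W
      rw [C.b₁.red_smul_eq (by rw [one_mul]; exact hWm.1), one_mul]
    · show C.b₂.red 1 (S.1 • W) = _ • C.b₂.red S.2 W
      rw [C.b₂.red_smul_eq (by rw [one_mul]; exact C.b₂.mem_of_le hS₂0 hval.le hWm.2), one_mul,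
        C.b₂.red_eq_smul_of_le hS₂0 hval.le hWm.2]
  rw [hWr] at e
  rw [← e]
  exact C.red_mem_glued_one hmem hrr

end NodeUnit

end PairReduction

end FLTAgent.Semistable
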