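import Fermat.Agent.SemistableNodes.RationalExact
import Fermat.Agent.Semistable.Transport
import Fermat.Agent.SemistableHecke.FixedClasses
import Mathlib.Algebra.CharP.Basic

/-!
# Deviation of an automorphism: slopes are proportional to widths

A `Deviation` is an automorphism that is the identity modulo a level on rational functions and
moves the generator of the values exactly at that level.  `deviation_key` ties the difference of
the deviation constants on the two branches to the shift of scales of an extremal rational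
function.
-/

set_option autoImplicit false

noncomputable section

open AlgebraicCurve FLTAgent.FFRiemannRoch FLTAgent.FFBasic

namespace FLTAgent.Semistable

variable {L k : Type*} [Field L] [Field k] {A : ValuationSubring L} {π : A →+* k}

/-- Integral powers of `1 + tt η` to first order. -/
theorem exists_one_add_zpow {tt η : A} (htt : π tt = 0) (z : ℤ) :
    ∃ a : A, (1 + (tt : L) * (η : L)) ^ z = 1 + (tt : L) * (a : L) ∧ π a = z * π η := by
  have hu : IsUnit (1 + tt * η) := by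
    by_contra h
    have h' : ¬IsUnit (1 + tt * η) := h
    have hlt : A.valuation ((1 + tt * η : A) : L) < 1 :=
      lt_of_le_of_ne (A.valuation_le_one _) fun he => h' ((A.valuation_eq_one_iff _).mpr he)
    have hlt' : A.valuation ((tt * η : A) : L) < 1 :=
      valuation_lt_one_of_π_eq_zero (π := π) (by rw [map_mul, htt, zero_mul])
    have h1 : A.valuation (((1 + tt * η : A) : L) - ((tt * η : A) : L)) < 1 :=
      lt_of_le_of_lt (A.valuation.map_sub _ _) (max_lt hlt hlt')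
    rw [show ((1 + tt * η : A) : L) - ((tt * η : A) : L) = 1 by push_cast; ring, map_one] at h1
    exact lt_irrefl _ h1
  obtain ⟨v, hv⟩ := hu.exists_right_inv
  have hv' : (1 + (tt : L) * (η : L)) * (v : L) = 1 := by
    have := congrArg Subtype.val hv
    push_cast at this
    exact this
  have hπv : π v = 1 := by
    have := congrArg π hv
    rwa [map_mul, map_add, map_mul, htt, zero_mul, add_zero, map_one, one_mul] at this
  induction z using Int.induction_on with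
  | zero => exact ⟨0, by simp, by simp⟩
  | succ i ih =>
    obtain ⟨a, ha, hπa⟩ := ih
    refine ⟨a + η + tt * a * η, ?_, by push_cast [map_add, map_mul, htt, hπa]; ring⟩
    rw [zpow_add₀ (left_ne_zero_of_mul_eq_one hv'), zpow_one, ha]
    push_cast
    ring
  | pred i ih =>
    obtain ⟨a, ha, hπa⟩ := ih
    refine ⟨a - η * v - tt * a * η * v, ?_, by
      push_cast [map_sub, map_mul, htt, hπv, hπa]; ring⟩
    rw [zpow_sub₀ (left_ne_zero_of_mul_eq_one hv'), zpow_one, ha,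
      div_eq_iff (left_ne_zero_of_mul_eq_one hv')]
    push_cast
    linear_combination ((tt : L) * η * (1 + (tt : L) * a)) * hv'

variable {F F₁ F₂ : Type*} [Field F] [Field F₁] [Field F₂]
  [Algebra L F] [Algebra k F₁] [Algebra k F₂] {ι : Type*} [Fintype ι]

namespace Branch

variable {Fb : Type*} [Field Fb] [Algebra k Fb] (B : Branch A π F Fb)

/-- First order expansion of `(1 + tt a) (x + tt r) (δ + tt r')`. -/
theorem exists_first_order {tt a d : A} (htt : π tt = 0) {x r r' : F}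
    (hx : B.Mem 1 x) (hr : B.Mem 1 r) (hr0 : B.red 1 r = 0) (hr' : B.Mem 1 r')
    (hr'0 : B.red 1 r' = 0) :
    ∃ q : F, B.Mem 1 q ∧ B.red 1 q = (π d * π a) • B.red 1 x ∧
      algebraMap L F (1 + (tt : L) * (a : L)) * (x + algebraMap L F (tt : L) * r) *
        (algebraMap L F (d : L) + algebraMap L F (tt : L) * r') =
      algebraMap L F (d : L) * x + algebraMap L F (tt : L) * q := by
  have hmem : ∀ {u : F}, u ∈ B.O → B.Mem 1 u := fun {u} h => by
    show (1 : L) • u ∈ B.O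
    rwa [one_smul]
  have hO : ∀ {u : F}, B.Mem 1 u → u ∈ B.O := fun {u} h => by
    have : (1 : L) • u ∈ B.O := h
    rwa [one_smul] at this
  let X : B.O := ⟨x, hO hx⟩
  let R : B.O := ⟨r, hO hr⟩
  let R' : B.O := ⟨r', hO hr'⟩
  let Q : B.O := B.constHom d * B.constHom a * X
    + (1 + B.constHom tt * B.constHom a) * (R * B.constHom d + X * R' + B.constHom tt * R * R')
  refine ⟨(Q : F), hmem Q.2, ?_, ?_⟩
  · rw [B.red_one Q.2]
    have hR : B.res R = 0 := (B.red_one (hO hr)).symm.trans hr0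
    have hR' : B.res R' = 0 := (B.red_one (hO hr')).symm.trans hr'0
    show B.res Q = _
    rw [B.red_one (hO hx)]
    simp only [Q, map_add, map_mul, map_one, B.res_constHom, hR, hR', htt, map_zero]
    rw [Algebra.smul_def, map_mul]
    ring
  · simp only [Q, X, R, R', Branch.constHom, RingHom.coe_mk, MonoidHom.coe_mk, OneHom.coe_mk,
      AddMemClass.coe_add, MulMemClass.coe_mul, OneMemClass.coe_one, map_add, map_mul, map_one]
    ring

/-- Two scales of the same valuation have proportional reductions. -/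
private theorem exists_unit_red {g c : L} {y : F} (hg : g ≠ 0) (hc : c ≠ 0)
    (hv : A.valuation g = A.valuation c) (hy : B.Mem g y) :
    B.Mem c y ∧ ∃ u : k, u ≠ 0 ∧ B.red c y = u • B.red g y :=
  ⟨B.mem_of_le hg hv.ge hy, π ⟨c / g, div_mem_of_valuation_le hg hv.ge⟩,
    π_ne_zero_of_eq_one (by rw [map_div₀, hv, div_self ((Valuation.ne_zero_iff _).mpr hc)]),
    B.red_eq_smul_of_le hg hv.ge hy⟩

/-- The reduction of `α c y + β q` at the scale `c`, when `q` reduces to a multiple of the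
reduction of `c y`. -/
private theorem mem_and_red_of_smul_eq {c : L} {v y q : F} {α β : A} {e : k} (hy : B.Mem c y)
    (hq : B.Mem 1 q) (hqr : B.red 1 q = e • B.red c y)
    (h : c • v = (α : L) • (c • y) + (β : L) • q) :
    B.Mem c v ∧ B.red c v = (π α + π β * e) • B.red c y := by
  have hy' : B.Mem 1 (c • y) := by rw [B.mem_smul_iff, one_mul]; exact hy
  have hv' : B.Mem 1 (c • v) := h ▸ Branch.Mem.add _ (Branch.Mem.smul _ hy' α)
    (Branch.Mem.smul _ hq β)
  have hv : B.Mem c v := by have := B.mem_smul_iff.mp hv'; rwa [one_mul] at this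
  refine ⟨hv, ?_⟩
  have ev := B.red_smul_eq (g := 1) (c := c) (u := v) (by rw [one_mul]; exact hv)
  have ey := B.red_smul_eq (g := 1) (c := c) (u := y) (by rw [one_mul]; exact hy)
  rw [one_mul] at ev ey
  rw [← ev, h, B.red_add (Branch.Mem.smul _ hy' α) (Branch.Mem.smul _ hq β), B.red_smul hy',
    B.red_smul hq, ey, hqr, add_smul, smul_smul]

end Branch

variable [IsAlgClosed k] [IsFunctionField k F₁] [IsFunctionField k F₂]
  [IsAlgClosed L] [IsFunctionField L F]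

namespace PairReduction

variable {C : PairReduction A π F F₁ F₂ ι} {m : ℕ}

/-- The data of the deviations of an automorphism at one level. -/
structure Deviation (Φ : Morph C C) (R : RatForm C) where
  tt : A
  tt_ne : tt ≠ 0
  π_tt : π tt = 0
  η : A
  π_η : π η ≠ 0
  map_ϖ : SemilinearAut.baseAut Φ.g R.ϖ = R.ϖ * (1 + (tt : L) * (η : L))
  dev₁ : ∀ w ∈ R.S, C.b₁.Mem 1 w →
    ∃ r, C.b₁.Mem 1 r ∧ C.b₁.red 1 r = 0 ∧ Φ.g • w - w = algebraMap L F (tt : L) * r
  dev₂ : ∀ w ∈ R.S, C.b₂.Mem 1 w →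
    ∃ r, C.b₂.Mem 1 r ∧ C.b₂.red 1 r = 0 ∧ Φ.g • w - w = algebraMap L F (tt : L) * r
  map_E : Φ.g • C.E = C.E

omit [IsAlgClosed k] [IsFunctionField k F₁] [IsFunctionField k F₂] [IsAlgClosed L]
  [IsFunctionField L F] in
theorem deviation_expand {Φ : Morph C C} {R : RatForm C} (Δ : Deviation Φ R) {Fb : Type*}
    [Field Fb] [Algebra k Fb] (B : Branch A π F Fb) {y w : F} {z : ℤ} {d : A}
    (hy : B.Mem (R.ϖ ^ z) y)
    (hdev : ∃ r, B.Mem 1 r ∧ B.red 1 r = 0 ∧
      Φ.g • (R.ϖ ^ z • y) - R.ϖ ^ z • y = algebraMap L F (Δ.tt : L) * r)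
    (hw : ∃ r, B.Mem 1 r ∧ B.red 1 r = 0 ∧
      w = algebraMap L F (d : L) + algebraMap L F (Δ.tt : L) * r) :
    ∃ q : F, B.Mem 1 q ∧ B.red 1 q = (π d * (-(z : k) * π Δ.η)) • B.red (R.ϖ ^ z) y ∧
      R.ϖ ^ z • (Φ.g • y * w) = algebraMap L F (d : L) * (R.ϖ ^ z • y)
        + algebraMap L F (Δ.tt : L) * q := by
  obtain ⟨r, hr, hr0, he⟩ := hdev
  obtain ⟨r', hr', hr'0, rfl⟩ := hw
  obtain ⟨a, ha, hπa⟩ := exists_one_add_zpow (η := Δ.η) Δ.π_tt (-z)
  have hx : B.Mem 1 (R.ϖ ^ z • y) := by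
    rw [B.mem_smul_iff, one_mul]; exact hy
  obtain ⟨q, hq, hqr, hq'⟩ :=
    B.exists_first_order (a := a) (d := d) Δ.π_tt hx hr hr0 hr' hr'0
  refine ⟨q, hq, ?_, ?_⟩
  · rw [hqr, hπa, B.red_smul_eq (by rw [one_mul]; exact hy), one_mul, Int.cast_neg]
  · rw [← hq', ← sub_eq_iff_eq_add'.mp he]
    have h1 : Φ.g • (R.ϖ ^ z • y)
        = algebraMap L F ((R.ϖ * (1 + (Δ.tt : L) * (Δ.η : L))) ^ z) * Φ.g • y := by
      rw [Φ.smul_algebra_smul, map_zpow₀ (SemilinearAut.baseAut Φ.g), Δ.map_ϖ, Algebra.smul_def]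
    have hne : (1 + (Δ.tt : L) * (Δ.η : L)) ≠ 0 := by
      intro h0
      have := congrArg π (show (1 + Δ.tt * Δ.η : A) = 0 from Subtype.ext h0)
      rw [map_add, map_one, map_mul, Δ.π_tt, zero_mul, add_zero, map_zero] at this
      exact one_ne_zero this
    rw [h1, Algebra.smul_def, ← mul_assoc (algebraMap L F (1 + (Δ.tt : L) * (a : L))), ← map_mul,
      mul_zpow, ← ha, zpow_neg]
    rw [show ((1 + (Δ.tt : L) * (Δ.η : L)) ^ z)⁻¹ * (R.ϖ ^ z * (1 + (Δ.tt : L) * (Δ.η : L)) ^ z)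
      = R.ϖ ^ z by field_simp]
    rw [mul_assoc]

omit [IsAlgClosed k] [IsFunctionField k F₁] [IsFunctionField k F₂] [IsAlgClosed L]
  [IsFunctionField L F] in
/-- If `c X` is `tt q₁` on the first branch and `δ c y + tt q₂` on the second, and no member of
`V` reduces only on the second branch to a multiple of `y`, then `δ = tt K` and the residue of
`K` is the difference of the slopes of `q₁` and `q₂`. -/
private theorem exists_slope {c : L × L} {V : Submodule L F} {y X q₁ q₂ : F} {tt : A} {δ : L}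
    {e₁ e₂ : k} (htt0 : (tt : L) ≠ 0) (hyc : C.Mem c y) (hyV : y ∈ V)
    (hXV : X ∈ V) (hq₁ : C.b₁.Mem 1 q₁) (hq₁r : C.b₁.red 1 q₁ = e₁ • C.b₁.red c.1 y)
    (hq₂ : C.b₂.Mem 1 q₂) (hq₂r : C.b₂.red 1 q₂ = e₂ • C.b₂.red c.2 y)
    (hX₁ : c.1 • X = (tt : L) • q₁) (hX₂ : c.2 • X = δ • (c.2 • y) + (tt : L) • q₂)
    (none₂ : ∀ v ∈ V, C.Mem c v → (C.red c v).1 = 0 →
      ∀ κ : k, (C.red c v).2 = κ • C.b₂.red c.2 y → κ = 0) :
    ∃ K : A, δ = tt * K ∧ π K = e₁ - e₂ := by
  -- the coefficients of a member of `V` which reduces to zero on the first branch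
  have key : ∀ (v : F) (α₁ α₂ β : A), v ∈ V →
      c.1 • v = (α₁ : L) • (c.1 • y) + (β : L) • q₁ →
      c.2 • v = (α₂ : L) • (c.2 • y) + (β : L) • q₂ →
      π α₁ + π β * e₁ = 0 → π α₂ + π β * e₂ = 0 := by
    intro v α₁ α₂ β hv h₁ h₂ h0
    obtain ⟨m₁, r₁⟩ := C.b₁.mem_and_red_of_smul_eq hyc.1 hq₁ hq₁r h₁
    obtain ⟨m₂, r₂⟩ := C.b₂.mem_and_red_of_smul_eq hyc.2 hq₂ hq₂r h₂
    exact none₂ v hv ⟨m₁, m₂⟩ (r₁.trans (by rw [h0, zero_smul])) _ r₂
  by_cases hK : δ / tt ∈ A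
  · refine ⟨⟨δ / tt, hK⟩, (mul_div_cancel₀ _ htt0).symm, ?_⟩
    obtain ⟨a₁, ha₁⟩ := C.π_surj e₁
    have h := key ((tt : L)⁻¹ • X - (a₁ : L) • y) (-a₁) (⟨δ / tt, hK⟩ - a₁) 1
      (Submodule.sub_mem _ (Submodule.smul_mem _ _ hXV) (Submodule.smul_mem _ _ hyV))
      (by
        rw [smul_sub, smul_comm c.1 _ X, hX₁, inv_smul_smul₀ htt0, smul_comm c.1 _ y]
        push_cast
        rw [neg_smul, one_smul, sub_eq_neg_add])
      (by
        rw [smul_sub, smul_comm c.2 _ X, hX₂, smul_add, inv_smul_smul₀ htt0, smul_smul,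
          inv_mul_eq_div, smul_comm c.2 _ y]
        push_cast
        rw [sub_smul, one_smul, add_sub_right_comm])
      (by rw [map_neg, ha₁, map_one, one_mul, neg_add_cancel])
    rw [map_sub, ha₁, map_one, one_mul] at h
    linear_combination h
  · exfalso
    have hδ : δ ≠ 0 := fun h => hK (by rw [h, zero_div]; exact A.zero_mem)
    have hμ : (tt : L) / δ ∈ A := by
      have := (A.mem_or_inv_mem (δ / tt)).resolve_left hK
      rwa [inv_div] at this
    have hπμ : π ⟨_, hμ⟩ = 0 := by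
      refine Branch.π_eq_zero_of_not_isUnit C.π_surj fun hu => hK ?_
      obtain ⟨i, hi⟩ := hu.exists_right_inv
      have hi' : (tt : L) / δ * (i : L) = 1 := congrArg Subtype.val hi
      rw [← inv_div]
      exact inv_eq_of_mul_eq_one_right hi' ▸ i.2
    have h := key (δ⁻¹ • X) 0 1 ⟨_, hμ⟩ (Submodule.smul_mem _ _ hXV)
      (by
        rw [smul_comm c.1 _ X, hX₁, smul_smul, inv_mul_eq_div]
        push_cast
        rw [zero_smul, zero_add])
      (by
        rw [smul_comm c.2 _ X, hX₂, smul_add, inv_smul_smul₀ hδ, smul_smul, inv_mul_eq_div]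
        push_cast
        rw [one_smul])
      (by rw [hπμ, map_zero, zero_mul, add_zero])
    rw [hπμ, map_one, zero_mul, add_zero] at h
    exact one_ne_zero h

omit [IsAlgClosed k] [IsFunctionField k F₁] [IsFunctionField k F₂] [IsAlgClosed L]
  [IsFunctionField L F] in
/-- `g y w - d y` lies in the space of `D + (n + n₀) E`. -/
private theorem moved_sub_mem {Φ : Morph C C} (hE : Φ.g • C.E = C.E) {D : Divisor L F} {n n₀ : ℕ}
    {y w : F} (d : L) (hy : y ∈ riemannRochSpace (D + n • C.E))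
    (hw : w ∈ riemannRochSpace (D - Φ.g • D + n₀ • C.E)) :
    y ∈ riemannRochSpace (D + (n + n₀) • C.E) ∧
      Φ.g • y * w - d • y ∈ riemannRochSpace (D + (n + n₀) • C.E) := by
  have hy' : y ∈ riemannRochSpace (D + (n + n₀) • C.E) :=
    riemannRochSpace_mono (add_le_add le_rfl
      (nsmul_le_nsmul_divisor C.polar.1 (Nat.le_add_right _ _))) hy
  refine ⟨hy', Submodule.sub_mem _ ?_ (Submodule.smul_mem _ _ hy')⟩
  have h := SemistableHecke.smul_mem_riemannRochSpace Φ.g hy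
  rw [smul_add, smul_comm Φ.g n C.E, hE] at h
  have := mul_mem_riemannRochSpace h hw
  rwa [show Φ.g • D + n • C.E + (D - Φ.g • D + n₀ • C.E) = D + (n + n₀) • C.E by
    rw [add_nsmul]; abel] at this

namespace TorsionData

omit [IsAlgClosed k] [IsFunctionField k F₁] [IsFunctionField k F₂] [IsAlgClosed L]
  [IsFunctionField L F] in
/-- Balance only depends on the valuations of the scales. -/
private theorem balanced_congr (T : C.TorsionData m) (U : NodeUnit C) {g c : L × L} {b : ℕ} {z : ℤ}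
    (h₁ : A.valuation g.1 = A.valuation c.1) (h₂ : A.valuation g.2 = A.valuation c.2)
    (hbal : T.Balanced U g b z) : T.Balanced U c b z := by
  have hv : A.valuation ((g.2 ^ m * T.c.2) ^ b)
      = A.valuation ((g.1 ^ m * T.c.1) ^ b * U.Q ^ z) := hbal
  show A.valuation ((c.2 ^ m * T.c.2) ^ b) = A.valuation ((c.1 ^ m * T.c.1) ^ b * U.Q ^ z)
  simp only [map_mul, map_pow, ← h₁, ← h₂] at hv ⊢
  exact hv

omit [IsAlgClosed L] [IsFunctionField L F] in
/-- Next to a `y` extremal on the second branch nothing is extremal on that branch alone. -/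
private theorem coeff_eq_zero_of_extremal (T : C.TorsionData m) (U : NodeUnit C) [NeZero m]
    {b : ℕ} (hb : 0 < b) {z : ℤ} {c : L × L} (hc₁ : c.1 ≠ 0) (hc₂ : c.2 ≠ 0)
    (hbal : T.Balanced U c b z) {n : ℕ} {s : ι} {y : F} {u : k} {x : F₂} (hu : u ≠ 0)
    (hyu : C.b₂.red c.2 y = u • x)
    (hx : x ≠ 0 ∧ ((b * m : ℕ) : ℤ) * (C.node₂ s).ord x = T.low₂ U b z s) :
    ∀ v ∈ riemannRochSpace (T.D + n • C.E), C.Mem c v → (C.red c v).1 = 0 →
      ∀ κ : k, (C.red c v).2 = κ • C.b₂.red c.2 y → κ = 0 := by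
  intro v hv hvc hv₁ κ hv₂
  by_contra hκ
  have hne : (C.red c v).2 ≠ 0 := by
    rw [hv₂, hyu]
    exact smul_ne_zero hκ (smul_ne_zero hu hx.1)
  refine ((T.node_bounds U (NeZero.pos m) hb hc₁ hc₂ hbal hv hvc s).2.2.mpr ⟨hne, ?_⟩).1 hv₁
  rw [hv₂, hyu, smul_smul, FFBasic.ord_smul_const _ (mul_ne_zero hκ hu)]
  exact hx.2

omit [IsAlgClosed L] [IsFunctionField L F] in
/-- The ratio of the scales at extremal rational functions is the same at all nodes modulo `m`. -/
theorem deviation_key (T : C.TorsionData m) (U : NodeUnit C) {Φ : Morph C C} {R : RatForm C}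
    (Δ : Deviation Φ R) [NeZero m] {n₀ : ℕ} {w : F}
    (hw : w ∈ riemannRochSpace (T.D - Φ.g • T.D + n₀ • C.E)) {d₁ d₂ : A}
    (hw₁ : ∃ r, C.b₁.Mem 1 r ∧ C.b₁.red 1 r = 0 ∧
      w = algebraMap L F (d₁ : L) + algebraMap L F (Δ.tt : L) * r)
    (hw₂ : ∃ r, C.b₂.Mem 1 r ∧ C.b₂.red 1 r = 0 ∧
      w = algebraMap L F (d₂ : L) + algebraMap L F (Δ.tt : L) * r)
    {b : ℕ} (hb : 0 < b) {z : ℤ} {s : ι} {g : L × L}
    (hbal : T.Balanced U g b z) {n : ℕ} {y : F} (hyS : y ∈ R.S)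
    (hy : y ∈ riemannRochSpace (T.D + n • C.E)) (hyg : C.Mem g y)
    (h₁ : (C.red g y).1 ≠ 0 ∧
      ((b * m : ℕ) : ℤ) * (C.node₁ s).ord (C.red g y).1 = T.low₁ U b z s)
    (h₂ : (C.red g y).2 ≠ 0 ∧
      ((b * m : ℕ) : ℤ) * (C.node₂ s).ord (C.red g y).2 = T.low₂ U b z s) :
    ∃ j : ℤ, A.valuation g.2 = A.valuation (g.1 * R.ϖ ^ j) ∧
      ∃ K : A, (d₂ : L) - d₁ = Δ.tt * K ∧ π K = π d₁ * π Δ.η * j := by
  -- rescale `g` to powers of `R.ϖ`
  obtain ⟨z₁, hz₁⟩ := R.valuation₁ hyS hyg h₁.1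
  obtain ⟨z₂, hz₂⟩ := R.valuation₂ hyS hyg h₂.1
  have hc : ∀ i : ℤ, R.ϖ ^ i ≠ 0 := fun i => zpow_ne_zero i R.ϖ_ne
  obtain ⟨hy₁, -⟩ := C.b₁.exists_unit_red (C.b₁.scale_ne_zero h₁.1) (hc z₁) hz₁ hyg.1
  obtain ⟨hy₂, u, hu, hyu⟩ := C.b₂.exists_unit_red (C.b₂.scale_ne_zero h₂.1) (hc z₂) hz₂ hyg.2
  -- expand the moved function on the two branches
  obtain ⟨q₁, hq₁, hq₁r, hq₁e⟩ := deviation_expand Δ C.b₁ hy₁
    (Δ.dev₁ _ (R.smul_mem _ (zpow_mem R.ϖ_mem z₁) _ hyS)
      (by rw [C.b₁.mem_smul_iff, one_mul]; exact hy₁)) hw₁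
  obtain ⟨q₂, hq₂, hq₂r, hq₂e⟩ := deviation_expand Δ C.b₂ hy₂
    (Δ.dev₂ _ (R.smul_mem _ (zpow_mem R.ϖ_mem z₂) _ hyS)
      (by rw [C.b₂.mem_smul_iff, one_mul]; exact hy₂)) hw₂
  simp only [← Algebra.smul_def] at hq₁e hq₂e
  obtain ⟨hyV, hXV⟩ := moved_sub_mem Δ.map_E (d₁ : L) hy hw
  -- compare the slopes
  obtain ⟨K, hKe, hK⟩ := exists_slope (c := (R.ϖ ^ z₁, R.ϖ ^ z₂)) (δ := (d₂ : L) - d₁)
    (fun h => Δ.tt_ne (Subtype.ext h)) ⟨hy₁, hy₂⟩ hyV hXV hq₁ hq₁r hq₂ hq₂r
    (by rw [smul_sub, hq₁e, smul_comm _ (d₁ : L) y, add_sub_cancel_left])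
    (by rw [smul_sub, hq₂e, smul_comm _ (d₁ : L) y, sub_smul, add_sub_right_comm])
    (T.coeff_eq_zero_of_extremal U hb (hc z₁) (hc z₂) (T.balanced_congr U hz₁ hz₂ hbal) hu hyu h₂)
  refine ⟨z₂ - z₁, ?_, K, hKe, ?_⟩
  · rw [map_mul, zpow_sub₀ R.ϖ_ne, map_div₀, hz₂, hz₁,
      mul_div_cancel₀ _ ((Valuation.ne_zero_iff _).mpr (hc z₁))]
  · have hdd : π d₂ = π d₁ := by
      have : π (d₂ - d₁) = 0 := by
        rw [show d₂ - d₁ = Δ.tt * K from Subtype.ext hKe, map_mul, Δ.π_tt, zero_mul]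
      rwa [map_sub, sub_eq_zero] at this
    rw [hdd] at hK
    push_cast
    linear_combination hK

end TorsionData

end PairReduction

end FLTAgent.Semistable
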