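import Fermat.Agent.Semistable.Torsion
import Fermat.Agent.SemistableHecke.FixedClasses
import Mathlib.LinearAlgebra.Dual.Lemmas
import Mathlib.LinearAlgebra.LinearIndependent.Lemmas

/-!
# Descent along a group of semilinear automorphisms

For a `DiscreteAction`, stable spaces are spanned by fixed functions
(`DiscreteAction.le_span_fixed`), fixed classes have fixed divisors, and fixed torsion classes
fixed data (`DiscreteAction.exists_fixed_torsionData`).
-/

set_option autoImplicit false

noncomputable section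

open AlgebraicCurve FLTAgent.FFBasic

namespace FLTAgent.Semistable

variable {L F : Type*} [Field L] [Field F] [Algebra L F]

/-- Every function is moved only through finitely many constants, each with finite orbit. -/
structure DiscreteAction (G : Subgroup (SemilinearAut L F)) : Prop where
  orbit_finite : ∀ l : L, (Set.range fun g : G => SemilinearAut.baseAut g.1 l).Finite
  exists_stab : ∀ x : F, ∃ s : Finset L,
    ∀ g : G, (∀ l ∈ s, SemilinearAut.baseAut g.1 l = l) → g.1 • x = x

variable (G : Subgroup (SemilinearAut L F))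

/-- The functions fixed by `G`. -/
def fixedFun : AddSubgroup F where
  carrier := {x | ∀ g ∈ G, g • x = x}
  zero_mem' g _ := smul_zero g
  add_mem' := fun {_ _} ha hb g hg => by rw [smul_add, ha g hg, hb g hg]
  neg_mem' := fun {_} ha g hg => by rw [smul_neg, ha g hg]

theorem mem_fixedFun {x : F} : x ∈ fixedFun G ↔ ∀ g ∈ G, g • x = x := Iff.rfl

theorem smul_const (g : SemilinearAut L F) (c : L) (x : F) :
    g • (c • x) = SemilinearAut.baseAut g c • (g • x) := by
  rw [Algebra.smul_def, smul_mul', SemilinearAut.smul_algebraMap, Algebra.smul_def]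

/-- Constants fixed by `G` preserve fixed functions. -/
theorem smul_mem_fixedFun {c : L} (hc : ∀ g ∈ G, SemilinearAut.baseAut g c = c) {x : F}
    (hx : x ∈ fixedFun G) : c • x ∈ fixedFun G := fun g hg => by
  rw [smul_const, hc g hg, hx g hg]

variable {G}

/-- A stable space is spanned by its fixed functions. -/
theorem DiscreteAction.le_span_fixed (hG : DiscreteAction G) {V : Submodule L F}
    (hV : ∀ g ∈ G, ∀ x ∈ V, g • x ∈ V) :
    V ≤ Submodule.span L ((fixedFun G : Set F) ∩ V) := by
  classical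
  intro u hu
  obtain ⟨s₀, hs₀⟩ := hG.exists_stab u
  -- a finite stable set of constants
  set O : Finset L := s₀.biUnion fun l => (hG.orbit_finite l).toFinset with hO
  have hs₀O : ∀ l ∈ s₀, l ∈ O := fun l hl => Finset.mem_biUnion.mpr
    ⟨l, hl, (hG.orbit_finite l).mem_toFinset.mpr ⟨1, by simp⟩⟩
  have hOs : ∀ (g : G) (l : L), l ∈ O → SemilinearAut.baseAut g.1 l ∈ O := by
    intro g l hl
    obtain ⟨l₀, hl₀, hl⟩ := Finset.mem_biUnion.mp hl
    obtain ⟨h, rfl⟩ := (hG.orbit_finite l₀).mem_toFinset.mp hl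
    exact Finset.mem_biUnion.mpr ⟨l₀, hl₀, (hG.orbit_finite l₀).mem_toFinset.mpr
      ⟨g * h, by simp⟩⟩
  -- the permutations of that set
  let res : G → (O → O) := fun g l => ⟨SemilinearAut.baseAut g.1 l.1, hOs g l.1 l.2⟩
  let Q : Finset (O → O) := Finset.univ.filter fun e => ∃ g : G, res g = e
  have hQ : ∀ e : Q, ∃ g : G, res g = e.1 := fun e => (Finset.mem_filter.mp e.2).2
  choose q hq using hQ
  -- the constants seen by the permutations
  let H : Submonoid L :=
    { carrier := {l | ∀ g : G, (∀ o ∈ O, SemilinearAut.baseAut g.1 o = o) →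
        SemilinearAut.baseAut g.1 l = l}
      one_mem' := fun g _ => map_one _
      mul_mem' := fun {a b} ha hb g hg => by rw [map_mul, ha g hg, hb g hg] }
  have hsame : ∀ g g' : G, res g = res g' → ∀ o ∈ O,
      SemilinearAut.baseAut (g⁻¹ * g').1 o = o := by
    intro g g' h o ho
    have h' : SemilinearAut.baseAut g.1 o = SemilinearAut.baseAut g'.1 o :=
      congrArg Subtype.val (congrFun h ⟨o, ho⟩)
    simp only [Subgroup.coe_mul, Subgroup.coe_inv, SemilinearAut.baseAut_mul,
      SemilinearAut.baseAut_inv, RingAut.mul_apply, ← h']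
    exact RingEquiv.symm_apply_apply _ _
  have hval : ∀ g g' : G, res g = res g' → ∀ l ∈ H,
      SemilinearAut.baseAut g.1 l = SemilinearAut.baseAut g'.1 l := by
    intro g g' h l hl
    have := hl (g⁻¹ * g') (hsame g g' h)
    conv_lhs => rw [← this]
    simp only [Subgroup.coe_mul, Subgroup.coe_inv, SemilinearAut.baseAut_mul,
      SemilinearAut.baseAut_inv, RingAut.mul_apply]
    exact RingEquiv.apply_symm_apply _ _
  have hfun : ∀ g g' : G, res g = res g' → g.1 • u = g'.1 • u := by
    intro g g' h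
    have := hs₀ (g⁻¹ * g') fun l hl => hsame g g' h l (hs₀O l hl)
    conv_lhs => rw [← this]
    rw [Subgroup.coe_mul, Subgroup.coe_inv, mul_smul, smul_inv_smul]
  let ψ : Q → (H →* L) := fun e =>
    { toFun := fun l => SemilinearAut.baseAut (q e).1 l.1
      map_one' := map_one _
      map_mul' := fun a b => map_mul _ a.1 b.1 }
  have hψ : Function.Injective ψ := by
    intro e e' h
    refine Subtype.ext ?_
    rw [← hq e, ← hq e']
    funext o
    exact Subtype.ext (DFunLike.congr_fun h ⟨o.1, fun g hg => hg o.1 o.2⟩)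
  have hli := (linearIndependent_monoidHom H L).comp ψ hψ
  let T : (Q → L) →ₗ[L] F := Fintype.linearCombination L fun e => (q e).1 • u
  have hfix : ∀ l : H, T (fun e => ψ e l) ∈ fixedFun G := by
    intro l g hg
    let g' : G := ⟨g, hg⟩
    have hex : ∀ e : Q, res (g' * q e) ∈ Q := fun e =>
      Finset.mem_filter.mpr ⟨Finset.mem_univ _, _, rfl⟩
    let σ : Q → Q := fun e => ⟨res (g' * q e), hex e⟩
    have hσ : Function.Injective σ := by
      intro e e' h
      refine Subtype.ext ?_
      rw [← hq e, ← hq e']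
      funext o
      have h1 : SemilinearAut.baseAut (g' * q e).1 o.1 = SemilinearAut.baseAut (g' * q e').1 o.1 :=
        congrArg Subtype.val (congrFun (congrArg Subtype.val h) o)
      simp only [Subgroup.coe_mul, SemilinearAut.baseAut_mul, RingAut.mul_apply] at h1
      exact Subtype.ext ((SemilinearAut.baseAut g).injective h1)
    simp only [T, Fintype.linearCombination_apply, Finset.smul_sum]
    refine Fintype.sum_bijective σ (Finite.injective_iff_bijective.mp hσ) _ _ fun e => ?_
    have hr : res (q (σ e)) = res (g' * q e) := hq (σ e)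
    rw [smul_const]
    show _ = SemilinearAut.baseAut (q (σ e)).1 l.1 • (q (σ e)).1 • u
    rw [hval _ _ hr l.1 l.2, hfun _ _ hr]
    simp only [Subgroup.coe_mul, SemilinearAut.baseAut_mul, RingAut.mul_apply, mul_smul]
    rfl
  have hstab : ∀ c, T c ∈ V := fun c => by
    simp only [T, Fintype.linearCombination_apply]
    exact Submodule.sum_mem _ fun e _ => V.smul_mem _ (hV _ (q e).2 _ hu)
  have htop : Submodule.span L (Set.range fun l : H => fun e => ψ e l) = ⊤ := by
    by_contra hne
    obtain ⟨f, hf, hf'⟩ := Submodule.exists_le_ker_of_lt_top _ (lt_top_iff_ne_top.mpr hne)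
    refine hf (LinearMap.pi_ext' fun e => LinearMap.ext_ring ?_)
    have h := Fintype.linearIndependent_iff.mp hli (fun e => f (Pi.single e 1)) ?_ e
    · simpa using h
    · funext l
      have h0 := hf' (Submodule.subset_span ⟨l, rfl⟩ :
        (fun e => ψ e l) ∈ Submodule.span L (Set.range fun l : H => fun e => ψ e l))
      rw [LinearMap.mem_ker, ← Finset.univ_sum_single (fun e => ψ e l), map_sum] at h0
      simp only [Finset.sum_apply, Pi.smul_apply, Function.comp_apply, Pi.zero_apply, smul_eq_mul]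
      refine Eq.trans (Finset.sum_congr rfl fun e _ => ?_) h0
      rw [show (Pi.single e (ψ e l) : Q → L) = ψ e l • Pi.single e 1 by
        rw [← Pi.single_smul, smul_eq_mul, mul_one], map_smul, smul_eq_mul, mul_comm]
  let e₀ : Q := ⟨res 1, Finset.mem_filter.mpr ⟨Finset.mem_univ _, 1, rfl⟩⟩
  have hu₀ : T (Pi.single e₀ 1) = u := by
    rw [Fintype.linearCombination_apply_single, one_smul, hfun _ 1 (hq e₀), Subgroup.coe_one,
      one_smul]
  rw [← hu₀]
  have := Submodule.mem_map_of_mem (f := T)
    (htop ▸ Submodule.mem_top : Pi.single e₀ (1 : L) ∈ Submodule.span L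
      (Set.range fun l : H => fun e => ψ e l))
  rw [Submodule.map_span] at this
  refine Submodule.span_mono ?_ this
  rintro _ ⟨_, ⟨l, rfl⟩, rfl⟩
  exact ⟨hfix l, hstab _⟩

/-- A stable line has a fixed generator. -/
theorem DiscreteAction.exists_fixed_smul (hG : DiscreteAction G) {f : F} (hf : f ≠ 0)
    (hstab : ∀ g ∈ G, ∃ c : L, g • f = c • f) : ∃ c : L, c ≠ 0 ∧ c • f ∈ fixedFun G := by
  by_contra h
  push Not at h
  have hV : ∀ g ∈ G, ∀ x ∈ Submodule.span L {f}, g • x ∈ Submodule.span L {f} := by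
    intro g hg x hx
    obtain ⟨a, rfl⟩ := Submodule.mem_span_singleton.mp hx
    obtain ⟨c, hc⟩ := hstab g hg
    rw [smul_const, hc, smul_smul]
    exact Submodule.smul_mem _ _ (Submodule.mem_span_singleton_self f)
  have hle := hG.le_span_fixed hV (Submodule.mem_span_singleton_self f)
  have hbot : Submodule.span L ((fixedFun G : Set F) ∩ Submodule.span L {f}) = ⊥ := by
    rw [Submodule.span_eq_bot]
    rintro x ⟨hx, hxf⟩
    obtain ⟨c, rfl⟩ := Submodule.mem_span_singleton.mp hxf
    rcases eq_or_ne c 0 with rfl | hc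
    · exact zero_smul _ _
    · exact absurd hx (h c hc)
  rw [hbot, Submodule.mem_bot] at hle
  exact hf hle

section Classes

variable [IsAlgClosed L] [IsFunctionField L F]

/-- Functions with the same divisor differ by a constant. -/
theorem exists_eq_smul_of_ord_eq {a b : F} (ha : a ≠ 0) (hb : b ≠ 0)
    (h : ∀ v : Place L F, v.ord a = v.ord b) : ∃ c : L, a = c • b := by
  obtain ⟨c, hc⟩ := exists_eq_algebraMap_of_isIntegral (K := L) (IsAlgebraic.isIntegral
    (isAlgebraic_iff_forall_ord_eq_zero.mpr (fun v : Place L F =>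
      show v.ord (a / b) = 0 by
        rw [div_eq_mul_inv, v.ord_mul ha (inv_ne_zero hb), v.ord_inv, h v, add_neg_cancel])))
  exact ⟨c, by rw [Algebra.smul_def, hc, div_mul_cancel₀ _ hb]⟩

/-- A class fixed by `G` contains a divisor fixed by `G`, when `G` fixes a place. -/
theorem exists_fixed_divisor {P₀ : Place L F} (hP₀ : ∀ g ∈ G, g • P₀ = P₀) {x : Pic0 L F}
    (hx : ∀ g ∈ G, g • x = x) :
    ∃ E : Divisor.degZero (K := L) (F := F), Pic0.mk E = x ∧
      ∀ g ∈ G, g • (E : Divisor L F) = E := by
  obtain ⟨D, rfl⟩ := Pic0.mk_surjective x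
  obtain ⟨n, u, -, hu0, hu, huniq⟩ :=
    SemistableHecke.exists_unique_effective P₀ (Divisor.mem_degZero.mp D.2)
  set E : Divisor L F := (D : Divisor L F) + divFun u with hE
  have hE0 : E ∈ Divisor.degZero (K := L) (F := F) := by
    rw [Divisor.mem_degZero, hE, map_add, degree_divFun, Divisor.mem_degZero.mp D.2, add_zero]
  refine ⟨⟨E, hE0⟩, ?_, fun g hg => ?_⟩
  · rw [Pic0.mk, Pic0.mk, QuotientAddGroup.eq, AddSubgroup.mem_addSubgroupOf]
    refine ⟨u⁻¹, inv_ne_zero hu0, fun v => ?_⟩
    rw [AddSubgroup.coe_add, AddSubgroup.coe_neg, v.ord_inv]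
    simp [hE, divFun_apply]
  · have hx' := hx g hg
    rw [SemilinearAut.pic0_smul_mk] at hx'
    obtain ⟨h, hh0, hh⟩ := QuotientAddGroup.eq.mp hx'
    have hgD : ∀ v : Place L F,
        (D : Divisor L F) v - (g • (D : Divisor L F)) v = v.ord h := fun v => by
      rw [← hh v]
      simp [SemilinearAut.coe_degZeroSMulHom, sub_eq_neg_add]
    have hgu : g • u ≠ 0 := fun h0 => hu0 (MulAction.injective g (h0.trans (smul_zero g).symm))
    have hw : h⁻¹ * (g • u) ∈ riemannRochSpace ((D : Divisor L F) + Finsupp.single P₀ (n : ℤ)) := by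
      rw [mem_riemannRochSpace_iff]
      intro v
      refine Or.inr ?_
      have h1 := (mem_riemannRochSpace_iff.mp
        (SemistableHecke.smul_mem_riemannRochSpace g hu) v).resolve_left hgu
      rw [smul_add, SemilinearAut.smul_single, hP₀ g hg, Finsupp.add_apply] at h1
      rw [v.ord_mul (inv_ne_zero hh0) hgu, v.ord_inv, Finsupp.add_apply]
      have := hgD v
      omega
    obtain ⟨c, hc⟩ := huniq _ hw
    have hc0 : c ≠ 0 := by
      rintro rfl
      rw [zero_smul] at hc
      exact mul_ne_zero (inv_ne_zero hh0) hgu hc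
    show g • E = E
    refine Finsupp.ext fun v => ?_
    have h1 := congrArg v.ord hc
    rw [FFBasic.ord_smul_const v hc0, v.ord_mul (inv_ne_zero hh0) hgu, v.ord_inv] at h1
    have h2 := hgD v
    rw [hE, smul_add, SemistableHecke.smul_divFun, Finsupp.add_apply, Finsupp.add_apply,
      divFun_apply, divFun_apply]
    omega

variable {k F₁ F₂ : Type*} [Field k] {A : ValuationSubring L} {π : A →+* k} [Field F₁] [Field F₂]
  [Algebra k F₁] [Algebra k F₂] {ι : Type*} [Fintype ι]

/-- Fixed torsion classes have fixed data, and the spaces attached to them are spanned by fixed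
functions. -/
theorem DiscreteAction.exists_fixed_torsionData (hG : DiscreteAction G)
    {C : PairReduction A π F F₁ F₂ ι} {m : ℕ} (hE : ∀ g ∈ G, g • C.E = C.E)
    {P₀ : Place L F} (hP₀ : ∀ g ∈ G, g • P₀ = P₀) {x : Pic0 L F} (hx : m • x = 0)
    (hfix : ∀ g ∈ G, g • x = x) :
    ∃ T : C.TorsionData m, T.cls = x ∧ T.f ∈ fixedFun G ∧ (∀ g ∈ G, g • T.D = T.D) ∧
      ∀ n : ℕ, riemannRochSpace (T.D + n • C.E) ≤
        Submodule.span L ((fixedFun G : Set F) ∩ riemannRochSpace (T.D + n • C.E)) := by
  obtain ⟨E, rfl, hEfix⟩ := exists_fixed_divisor hP₀ hfix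
  have h : (Pic0.mk (m • E) : Pic0 L F) = 0 := hx
  rw [Pic0.mk, QuotientAddGroup.eq_zero_iff, AddSubgroup.mem_addSubgroupOf] at h
  obtain ⟨f, hf, hfD⟩ := h
  obtain ⟨c, hc, hcf⟩ := hG.exists_fixed_smul hf fun g hg => by
    refine exists_eq_smul_of_ord_eq (fun h0 => hf
      (MulAction.injective g (h0.trans (smul_zero g).symm))) hf fun v => ?_
    have h1 := SemilinearAut.ord_smul g (g⁻¹ • v) f
    rw [smul_inv_smul] at h1
    rw [h1, ← hfD, ← hfD, ← SemilinearAut.divisor_smul_apply, AddSubgroup.coe_nsmul,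
      smul_comm g m, hEfix g hg]
  have hcf0 : c • f ≠ 0 := smul_ne_zero hc hf
  obtain ⟨c₁, -, hm₁, hr₁⟩ := C.b₁.exists_red_ne_zero hcf0
  obtain ⟨c₂, -, hm₂, hr₂⟩ := C.b₂.exists_red_ne_zero hcf0
  refine ⟨{ D := E, degree_eq := Divisor.mem_degZero.mp E.2, f := c • f, f_ne := hcf0,
            div_eq := fun v => ?_, c := (c₁, c₂), mem := ⟨hm₁, hm₂⟩, ne₁ := hr₁, ne₂ := hr₂ },
    rfl, hcf, hEfix, fun n => hG.le_span_fixed fun g hg y hy => ?_⟩
  · rw [FFBasic.ord_smul_const v hc, ← hfD v, AddSubgroup.coe_nsmul, Finsupp.smul_apply,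
      nsmul_eq_mul]
  · have := SemistableHecke.smul_mem_riemannRochSpace g hy
    rwa [smul_add, smul_comm g n C.E, hE g hg, hEfix g hg] at this

end Classes

end FLTAgent.Semistable
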