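import Fermat.Agent.SemistableNodes.OffNodes
import Fermat.Agent.SemistableNodes.Width

/-!
# Counting dimensions at every pair of scales

At `Balanced` scales the orders of reductions at a node are bounded below by `low₁`, `low₂`
(`node_bounds`).  The count of dimensions shows that a node is critical on one branch exactly
when it is on the other, and then both bounds are reached (`exists_exact`).
-/

set_option autoImplicit false

noncomputable section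

open AlgebraicCurve FLTAgent.FFRiemannRoch FLTAgent.FFBasic

namespace FLTAgent.Semistable

theorem m_mul_degree_floorDiv {k G : Type*} [Field k] [Field G] [Algebra k G] [IsAlgClosed k]
    [IsFunctionField k G] {ι : Type*} [Fintype ι] {p : ι → Place k G} (hp : Function.Injective p)
    {m : ℕ} {b : G} (h : ∀ v : Place k G, (∀ s, v ≠ p s) → (v.ord b : ZMod m) = 0) :
    (m : ℤ) * Divisor.degree (floorDiv (k := k) m b) = -∑ s, (p s).ord b % (m : ℤ) := by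
  classical
  have e : m • floorDiv (k := k) m b
      = divOf b - ∑ s, Finsupp.single (p s) ((p s).ord b % (m : ℤ)) := by
    refine Finsupp.ext fun v => ?_
    rw [Finsupp.smul_apply, nsmul_eq_mul, floorDiv_apply, Finsupp.sub_apply, divOf_apply,
      Finset.sum_apply']
    simp only [Finsupp.single_apply]
    by_cases hv : ∃ s, v = p s
    · obtain ⟨s, rfl⟩ := hv
      simp only [hp.eq_iff, Finset.sum_ite_eq', Finset.mem_univ, if_true]
      have := Int.mul_ediv_add_emod ((p s).ord b) m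
      linarith
    · push Not at hv
      rw [Finset.sum_eq_zero fun s _ => if_neg fun he => hv s he.symm, sub_zero]
      exact Int.mul_ediv_cancel' ((ZMod.intCast_zmod_eq_zero_iff_dvd _ m).mp (h v hv))
  have := congrArg (Divisor.degree (K := k) (F := G)) e
  rw [map_nsmul, map_sub, degree_divOf, map_sum, nsmul_eq_mul] at this
  simp only [Divisor.degree_single, deg_eq_one, Nat.cast_one, mul_one] at this
  linarith

theorem ediv_add_ediv_neg {D : ℤ} (hD : 0 < D) (p : ℤ) :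
    p / D + (-p) / D = if D ∣ p then 0 else -1 := by
  split_ifs with h
  · rw [Int.neg_ediv_of_dvd h, add_neg_cancel]
  · rw [Int.neg_ediv]
    simp only [if_neg h, Int.sign_eq_one_of_pos hD]
    ring

/-- A divisor with prescribed coefficients at the `p s`, one less than `floorDiv` allows on `Y`. -/
private def boundDiv {k G : Type*} [Field k] [Field G] [Algebra k G] [IsAlgClosed k]
    [IsFunctionField k G] {ι : Type*} [Fintype ι] (m n : ℕ) (b : G) (E : Divisor k G)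
    (p : ι → Place k G) (e : ι → ℤ) (Y : Finset (Place k G)) : Divisor k G :=
  floorDiv (k := k) m b + n • E + ∑ s, Finsupp.single (p s) (e s - (p s).ord b / (m : ℤ))
    - ∑ v ∈ Y, Finsupp.single v 1

/-- The degree of `boundDiv`. -/
private theorem degree_boundDiv {k G : Type*} [Field k] [Field G] [Algebra k G] [IsAlgClosed k]
    [IsFunctionField k G] {ι : Type*} [Fintype ι] (m n : ℕ) (b : G) (E : Divisor k G)
    (p : ι → Place k G) (e : ι → ℤ) (Y : Finset (Place k G)) :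
    Divisor.degree (boundDiv m n b E p e Y) = Divisor.degree (floorDiv (k := k) m b)
      + (n : ℤ) * Divisor.degree E + ∑ s, (e s - (p s).ord b / (m : ℤ)) - Y.card := by
  simp [boundDiv, map_add, map_nsmul, map_sum, Divisor.degree_single, deg_eq_one]

open Classical in
/-- Order conditions for membership in the Riemann–Roch space of `boundDiv`. -/
private theorem mem_rr_boundDiv {k G : Type*} [Field k] [Field G] [Algebra k G] [IsAlgClosed k]
    [IsFunctionField k G] {ι : Type*} [Fintype ι] {m n : ℕ} (hm : 0 < m) {b : G}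
    {E : Divisor k G} {p : ι → Place k G} (hp : Function.Injective p) (hE : ∀ s, E (p s) = 0)
    {e : ι → ℤ} {Y : Finset (Place k G)} (hY : ∀ s, p s ∉ Y)
    (hdiv : ∀ v : Place k G, (∀ s, v ≠ p s) → (v.ord b : ZMod m) = 0) {w : G}
    (hnode : ∀ s, -e s ≤ (p s).ord w)
    (hoff : ∀ v : Place k G, (∀ s, v ≠ p s) → -((m : ℤ) * n * E v) ≤ m * v.ord w + v.ord b)
    (hYne : ∀ v ∈ Y, (m : ℤ) * v.ord w + v.ord b ≠ -((m : ℤ) * n * E v)) :
    w ∈ riemannRochSpace (boundDiv m n b E p e Y) := by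
  rw [mem_riemannRochSpace_iff]
  intro v
  right
  simp only [boundDiv, Finsupp.sub_apply, Finsupp.add_apply, Finsupp.smul_apply, nsmul_eq_mul,
    floorDiv_apply, Finset.sum_apply', Finsupp.single_apply, Finset.sum_ite_eq']
  by_cases hv : ∃ s, v = p s
  · obtain ⟨s, rfl⟩ := hv
    simp only [hp.eq_iff, Finset.sum_ite_eq', Finset.mem_univ, if_true, if_neg (hY s), hE, mul_zero]
    have := hnode s
    omega
  push Not at hv
  simp only [fun s => (hv s).symm, if_false, Finset.sum_const_zero, add_zero]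
  have hm0 : (0 : ℤ) < m := by exact_mod_cast hm
  obtain ⟨t, ht⟩ := (ZMod.intCast_zmod_eq_zero_iff_dvd _ m).mp (hdiv v hv)
  have h1 := hoff v hv
  rw [ht] at h1
  rw [ht, Int.mul_ediv_cancel_left _ hm0.ne']
  split_ifs with hvY
  · have hne := hYne v hvY
    rw [ht] at hne
    have := lt_of_le_of_ne (by linarith) (Ne.symm hne)
    have h4 : -((n : ℤ) * E v) < v.ord w + t :=
      lt_of_mul_lt_mul_left (a := (m : ℤ)) (by linarith) hm0.le
    omega
  · have h4 : -((n : ℤ) * E v) ≤ v.ord w + t :=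
      le_of_mul_le_mul_left (a := (m : ℤ)) (by linarith) hm0
    omega

/-- A subspace of a product is no bigger than bounds for its second projection and its kernel. -/
private theorem finrank_le_add_of_fst_snd {k V₁ V₂ : Type*} [Field k] [AddCommGroup V₁]
    [AddCommGroup V₂] [Module k V₁] [Module k V₂] {W : Submodule k (V₁ × V₂)}
    {U₁ : Submodule k V₁} {U₂ : Submodule k V₂} [FiniteDimensional k W] [FiniteDimensional k U₁]
    [FiniteDimensional k U₂] (hsnd : ∀ w ∈ W, w.2 ∈ U₂) (hfst : ∀ w ∈ W, w.2 = 0 → w.1 ∈ U₁) :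
    Module.finrank k W ≤ Module.finrank k U₂ + Module.finrank k U₁ := by
  let ψ : W →ₗ[k] U₂ :=
    ((LinearMap.snd k V₁ V₂).comp W.subtype).codRestrict _ fun w => hsnd _ w.2
  have hker : ∀ w : LinearMap.ker ψ, ((w : W) : V₁ × V₂).1 ∈ U₁ := fun w =>
    hfst _ (w : W).2 (congrArg Subtype.val (LinearMap.mem_ker.mp w.2))
  let χ : LinearMap.ker ψ →ₗ[k] U₁ :=
    ((LinearMap.fst k V₁ V₂).comp (W.subtype.comp (LinearMap.ker ψ).subtype)).codRestrict _ hker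
  have hχ : Function.Injective χ := fun x y h => Subtype.ext (Subtype.ext (Prod.ext
    (congrArg Subtype.val h) ((congrArg Subtype.val (LinearMap.mem_ker.mp x.2)).trans
      (congrArg Subtype.val (LinearMap.mem_ker.mp y.2)).symm)))
  rw [← LinearMap.finrank_range_add_finrank_ker ψ]
  exact add_le_add (Submodule.finrank_le _) (LinearMap.finrank_le_finrank_of_injective hχ)

/-- A sum of negated quotients, each moved by at most one, is bounded below. -/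
private theorem neg_sum_abs_le {ι : Type*} [Fintype ι] (a c t : ι → ℤ) (ht : ∀ s, t s ≤ 1) :
    -∑ s, (|a s| + |c s| + 1) ≤ ∑ s, (-(c s + t s) - a s) := by
  rw [← Finset.sum_neg_distrib]
  refine Finset.sum_le_sum fun s _ => ?_
  have := le_abs_self (a s)
  have := le_abs_self (c s)
  have := ht s
  linarith

/-- The two degree counts, scaled by `b m`, combine into one sum over the nodes. -/
private theorem mul_degree_add_eq {ι : Type*} [Fintype ι] {b m a₁ a₂ : ℤ} (σ₁ σ₂ e₁ e₂ : ι → ℤ)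
    (h₁ : m * a₁ = -∑ s, σ₁ s % m) (h₂ : m * a₂ = -∑ s, σ₂ s % m) :
    b * m * (a₁ + ∑ s, (e₁ s - σ₁ s / m) + (a₂ + ∑ s, (e₂ s - σ₂ s / m)))
      = ∑ s, (b * m * (e₁ s + e₂ s) - b * σ₁ s - b * σ₂ s) := by
  rw [mul_add, mul_add, mul_add, mul_assoc b m a₁, mul_assoc b m a₂, h₁, h₂]
  simp only [Finset.mul_sum, ← Finset.sum_neg_distrib, ← Finset.sum_add_distrib]
  refine Finset.sum_congr rfl fun s _ => ?_
  linear_combination (-b) * Int.mul_ediv_add_emod (σ₁ s) m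
    + (-b) * Int.mul_ediv_add_emod (σ₂ s) m

variable {L k : Type*} [Field L] [Field k] {A : ValuationSubring L} {π : A →+* k}
variable {F F₁ F₂ : Type*} [Field F] [Field F₁] [Field F₂]
  [Algebra L F] [Algebra k F₁] [Algebra k F₂] {ι : Type*} [Fintype ι]

namespace PairReduction

variable {C : PairReduction A π F F₁ F₂ ι} {m : ℕ}

namespace TorsionData

/-- The scales `g` on `L(D + n E)` put `u ^ m * f` at scales in ratio `Q ^ (z / b)`. -/
def Balanced (T : C.TorsionData m) (U : NodeUnit C) (g : L × L) (b : ℕ) (z : ℤ) : Prop :=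
  A.valuation ((g.2 ^ m * T.c.2) ^ b) = A.valuation ((g.1 ^ m * T.c.1) ^ b * U.Q ^ z)

theorem exists_balanced [IsAlgClosed L] (T : C.TorsionData m) (U : NodeUnit C) (hm : 0 < m) {b : ℕ}
    (hb : 0 < b) (z : ℤ) : ∃ g : L × L, g.1 ≠ 0 ∧ g.2 ≠ 0 ∧ T.Balanced U g b z := by
  obtain ⟨r, hr⟩ := IsAlgClosed.exists_pow_nat_eq ((T.c.1 / T.c.2) ^ b * U.Q ^ z)
    (Nat.mul_pos hm hb)
  refine ⟨(1, r), one_ne_zero, fun h => ?_, ?_⟩
  · rw [show r = 0 from h, zero_pow (Nat.mul_pos hm hb).ne'] at hr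
    exact mul_ne_zero (pow_ne_zero b (div_ne_zero T.c_ne₁ T.c_ne₂)) (zpow_ne_zero z U.Q_ne) hr.symm
  · unfold Balanced
    congr 1
    show (r ^ m * T.c.2) ^ b = (1 ^ m * T.c.1) ^ b * U.Q ^ z
    rw [mul_pow, ← pow_mul, hr, one_pow, one_mul, div_pow]
    field_simp [T.c_ne₂]

/-- `b m` times the least possible order at a node on the first branch. -/
def low₁ (T : C.TorsionData m) (U : NodeUnit C) (b : ℕ) (z : ℤ) (s : ι) : ℤ :=
  -(z * U.width₁ s + b * (C.node₁ s).ord T.bar.1)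

/-- `b m` times the least possible order at a node on the second branch. -/
def low₂ (T : C.TorsionData m) (U : NodeUnit C) (b : ℕ) (z : ℤ) (s : ι) : ℤ :=
  z * U.width₂ s - b * (C.node₂ s).ord T.bar.2

theorem pow_mul_mem_rr (T : C.TorsionData m) (hm : 0 < m) {n : ℕ} {u : F}
    (hu : u ∈ riemannRochSpace (T.D + n • C.E)) :
    u ^ m * T.f ∈ riemannRochSpace ((m * n) • C.E) := by
  rcases eq_or_ne u 0 with rfl | hu0
  · simp [zero_pow hm.ne']
  rw [mem_riemannRochSpace_iff] at hu ⊢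
  intro v
  right
  have h := (hu v).resolve_left hu0
  have hp := v.ord_zpow u m
  rw [zpow_natCast] at hp
  rw [v.ord_mul (pow_ne_zero m hu0) T.f_ne, hp, ← T.div_eq v]
  simp only [Finsupp.add_apply, Finsupp.smul_apply, nsmul_eq_mul, Nat.cast_mul] at h ⊢
  nlinarith

theorem mem_pow_mul (T : C.TorsionData m) {g : L × L} {u : F} (hug : C.Mem g u) :
    C.Mem (g ^ m * T.c) (u ^ m * T.f) ∧
      C.red (g ^ m * T.c) (u ^ m * T.f) = C.red g u ^ m * T.bar :=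
  ⟨(hug.pow m).mul T.mem, by rw [red_mul (hug.pow m) T.mem, red_pow hug]; rfl⟩

variable [IsAlgClosed k] [IsFunctionField k F₁] [IsFunctionField k F₂]

/-- Orders at a node are bounded below, and extremal on both branches together. -/
theorem node_bounds (T : C.TorsionData m) (U : NodeUnit C) (hm : 0 < m) {b : ℕ} (hb : 0 < b)
    {z : ℤ} {g : L × L} (hg₁ : g.1 ≠ 0) (hg₂ : g.2 ≠ 0) (hbal : T.Balanced U g b z) {n : ℕ}
    {u : F} (hu : u ∈ riemannRochSpace (T.D + n • C.E)) (hug : C.Mem g u) (s : ι) :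
    ((C.red g u).1 ≠ 0 → T.low₁ U b z s ≤ ((b * m : ℕ) : ℤ) * (C.node₁ s).ord (C.red g u).1) ∧
      ((C.red g u).2 ≠ 0 →
        T.low₂ U b z s ≤ ((b * m : ℕ) : ℤ) * (C.node₂ s).ord (C.red g u).2) ∧
      (((C.red g u).1 ≠ 0 ∧
          ((b * m : ℕ) : ℤ) * (C.node₁ s).ord (C.red g u).1 = T.low₁ U b z s) ↔
        ((C.red g u).2 ≠ 0 ∧
          ((b * m : ℕ) : ℤ) * (C.node₂ s).ord (C.red g u).2 = T.low₂ U b z s)) := by
  obtain ⟨hm', hr⟩ := T.mem_pow_mul hug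
  obtain ⟨n', κ, hκ, h₁, h₂, hval⟩ := U.exists_glued (G := g ^ m * T.c)
    (mul_ne_zero (pow_ne_zero m hg₁) T.c_ne₁) (mul_ne_zero (pow_ne_zero m hg₂) T.c_ne₂)
    (T.pow_mul_mem_rr hm hu) hm' hbal
  rw [hr] at h₁ h₂ hval
  set a := (C.red g u).1 with ha
  set a' := (C.red g u).2 with ha'
  simp only [Prod.fst_mul, Prod.snd_mul, Prod.pow_fst, Prod.pow_snd, ← ha, ← ha'] at h₁ h₂ hval
  set P₁ := (a ^ m * T.bar.1) ^ b * U.bar₁ ^ z with hP₁
  set P₂ := κ • ((a' ^ m * T.bar.2) ^ b * U.bar₂ ^ (-z)) with hP₂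
  have hne₁ : a ≠ 0 → P₁ ≠ 0 := fun h =>
    mul_ne_zero (pow_ne_zero b (mul_ne_zero (pow_ne_zero m h) T.bar_ne₁))
      (zpow_ne_zero z U.bar₁_ne)
  have hne₂ : a' ≠ 0 → P₂ ≠ 0 := fun h =>
    smul_ne_zero hκ (mul_ne_zero (pow_ne_zero b (mul_ne_zero (pow_ne_zero m h) T.bar_ne₂))
      (zpow_ne_zero (-z) U.bar₂_ne))
  have hz₁ : a = 0 → P₁ = 0 := fun h => by
    rw [hP₁, h, zero_pow hm.ne', zero_mul, zero_pow hb.ne', zero_mul]
  have hz₂ : a' = 0 → P₂ = 0 := fun h => by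
    rw [hP₂, h, zero_pow hm.ne', zero_mul, zero_pow hb.ne', zero_mul, smul_zero]
  have ho₁ : a ≠ 0 → (C.node₁ s).ord P₁
      = ((b * m : ℕ) : ℤ) * (C.node₁ s).ord a - T.low₁ U b z s := fun h => by
    rw [hP₁, Place.ord_mul _ (pow_ne_zero b (mul_ne_zero (pow_ne_zero m h) T.bar_ne₁))
      (zpow_ne_zero z U.bar₁_ne), ← zpow_natCast (a ^ m * T.bar.1) b, Place.ord_zpow,
      Place.ord_zpow, Place.ord_mul _ (pow_ne_zero m h) T.bar_ne₁, ← zpow_natCast a m,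
      Place.ord_zpow, low₁, NodeUnit.width₁]
    push_cast
    ring
  have ho₂ : a' ≠ 0 → (C.node₂ s).ord P₂
      = ((b * m : ℕ) : ℤ) * (C.node₂ s).ord a' - T.low₂ U b z s := fun h => by
    rw [hP₂, FFBasic.ord_smul_const _ hκ,
      Place.ord_mul _ (pow_ne_zero b (mul_ne_zero (pow_ne_zero m h) T.bar_ne₂))
      (zpow_ne_zero (-z) U.bar₂_ne), ← zpow_natCast (a' ^ m * T.bar.2) b, Place.ord_zpow,
      Place.ord_zpow, Place.ord_mul _ (pow_ne_zero m h) T.bar_ne₂, ← zpow_natCast a' m,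
      Place.ord_zpow, low₂, NodeUnit.width₂]
    push_cast
    ring
  have hb₁ := mem_ball_zero_of_mem (C.node₁_le n' s) h₁
  have hb₂ := mem_ball_zero_of_mem (C.node₂_le n' s) h₂
  have hnn₁ : a ≠ 0 → 0 ≤ (C.node₁ s).ord P₁ := fun h => by
    have := ((mem_ball_iff_ord _).mp hb₁).resolve_left (hne₁ h)
    omega
  have hnn₂ : a' ≠ 0 → 0 ≤ (C.node₂ s).ord P₂ := fun h => by
    have := ((mem_ball_iff_ord _).mp hb₂).resolve_left (hne₂ h)
    omega
  have hk₁ : (a ≠ 0 ∧ (C.node₁ s).ord P₁ = 0) ↔ valueAt (C.node₁ s) P₁ ≠ 0 := by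
    rcases eq_or_ne a 0 with h | h
    · simp [h, hz₁ h, (hasValue_zero (v := C.node₁ s)).valueAt_eq]
    · obtain ⟨β, hβ, hβ0⟩ := exists_value_of_ord_nonneg (hne₁ h) (hnn₁ h)
      rw [hβ.valueAt_eq]
      simp [h, hβ0]
  have hk₂ : (a' ≠ 0 ∧ (C.node₂ s).ord P₂ = 0) ↔ valueAt (C.node₂ s) P₂ ≠ 0 := by
    rcases eq_or_ne a' 0 with h | h
    · simp [h, hz₂ h, (hasValue_zero (v := C.node₂ s)).valueAt_eq]
    · obtain ⟨β, hβ, hβ0⟩ := exists_value_of_ord_nonneg (hne₂ h) (hnn₂ h)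
      rw [hβ.valueAt_eq]
      simp [h, hβ0]
  have hv := hval s
  rw [Pi.one_apply, one_mul] at hv
  rw [hv] at hk₁
  refine ⟨fun h => ?_, fun h => ?_, ?_⟩
  · have := hnn₁ h
    rw [ho₁ h] at this
    linarith
  · have := hnn₂ h
    rw [ho₂ h] at this
    linarith
  · calc (a ≠ 0 ∧ ((b * m : ℕ) : ℤ) * (C.node₁ s).ord a = T.low₁ U b z s)
        ↔ (a ≠ 0 ∧ (C.node₁ s).ord P₁ = 0) := and_congr_right fun h => by rw [ho₁ h, sub_eq_zero]
      _ ↔ (a' ≠ 0 ∧ (C.node₂ s).ord P₂ = 0) := hk₁.trans hk₂.symm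
      _ ↔ _ := and_congr_right fun h => by rw [ho₂ h, sub_eq_zero]

/-- No reduction at the scales `g` has the largest possible pole at `v` on the first branch. -/
def Missed₁ (T : C.TorsionData m) (g : L × L) (n : ℕ) (v : Place k F₁) : Prop :=
  (∀ s, v ≠ C.node₁ s) ∧ ∀ u ∈ riemannRochSpace (T.D + n • C.E), C.Mem g u → (C.red g u).1 ≠ 0 →
    (m : ℤ) * v.ord (C.red g u).1 + v.ord T.bar.1 ≠ -((m : ℤ) * n * C.E₁ v)

/-- No reduction at the scales `g` has the largest possible pole at `v` on the second branch. -/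
def Missed₂ (T : C.TorsionData m) (g : L × L) (n : ℕ) (v : Place k F₂) : Prop :=
  (∀ s, v ≠ C.node₂ s) ∧ ∀ u ∈ riemannRochSpace (T.D + n • C.E), C.Mem g u → (C.red g u).2 ≠ 0 →
    (m : ℤ) * v.ord (C.red g u).2 + v.ord T.bar.2 ≠ -((m : ℤ) * n * C.E₂ v)

variable [IsAlgClosed L] [IsFunctionField L F]

/-- A reduction vanishing on the second branch lies in `boundDiv` on the first one. -/
private theorem red₁_mem_boundDiv (T : C.TorsionData m) (U : NodeUnit C) (harch : Arch π)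
    [NeZero m] {b : ℕ} (hb : 0 < b) {z : ℤ} {g : L × L} (hg₁ : g.1 ≠ 0) (hg₂ : g.2 ≠ 0)
    (hbal : T.Balanced U g b z) {n : ℕ} {Y : Finset (Place k F₁)}
    (hY : ∀ v ∈ Y, T.Missed₁ g n v) {u : F} (hu : u ∈ riemannRochSpace (T.D + n • C.E))
    (hug : C.Mem g u) (h2 : (C.red g u).2 = 0) :
    (C.red g u).1 ∈ riemannRochSpace (boundDiv m n T.bar.1 C.E₁ C.node₁
      (fun s => -(T.low₁ U b z s / ((b * m : ℕ) : ℤ) + 1)) Y) := by
  have hm : 0 < m := NeZero.pos m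
  rcases eq_or_ne (C.red g u).1 0 with h0 | h0
  · rw [h0]; exact zero_mem _
  refine mem_rr_boundDiv hm C.node₁_injective C.node₁_off (fun s hs => (hY _ hs).1 s rfl)
    T.divisibility.1 (fun s => ?_) (fun v hv => ?_) fun v hvY => (hY v hvY).2 u hu hug h0
  · obtain ⟨hge, -, hiff⟩ := T.node_bounds U hm hb hg₁ hg₂ hbal hu hug s
    have := lt_of_le_of_ne (hge h0) fun heq => (hiff.mp ⟨h0, heq.symm⟩).1 h2
    have hdiv := Int.mul_ediv_add_emod (T.low₁ U b z s) ((b * m : ℕ) : ℤ)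
    have hmod := Int.emod_nonneg (T.low₁ U b z s)
      (Nat.cast_ne_zero.mpr (Nat.mul_pos hb hm).ne' : ((b * m : ℕ) : ℤ) ≠ 0)
    have : (0 : ℤ) < ((b * m : ℕ) : ℤ) := Nat.cast_pos.mpr (Nat.mul_pos hb hm)
    nlinarith
  · obtain ⟨hm', hr⟩ := T.mem_pow_mul hug
    have hball := red₁_mem_ball (C := C) U.exists_zero harch (T.pow_mul_mem_rr hm hu) hm'.1 hv
    rw [show C.b₁.red (g ^ m * T.c).1 (u ^ m * T.f) = (C.red g u).1 ^ m * T.bar.1 from
      congrArg Prod.fst hr, mem_ball_iff_ord] at hball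
    have h1 := hball.resolve_left (mul_ne_zero (pow_ne_zero m h0) T.bar_ne₁)
    rw [v.ord_mul (pow_ne_zero m h0) T.bar_ne₁, ← zpow_natCast, v.ord_zpow] at h1
    push_cast at h1
    linarith

open Classical in
/-- Reductions lie in `boundDiv` on the second branch, if none is extremal at a node of `X`. -/
private theorem red₂_mem_boundDiv (T : C.TorsionData m) (U : NodeUnit C) (harch : Arch π)
    [NeZero m] {b : ℕ} (hb : 0 < b) {z : ℤ} {g : L × L} (hg₁ : g.1 ≠ 0) (hg₂ : g.2 ≠ 0)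
    (hbal : T.Balanced U g b z) {n : ℕ} {X : Finset ι}
    (hX : ∀ s ∈ X, ∀ u ∈ riemannRochSpace (T.D + n • C.E), C.Mem g u → (C.red g u).2 ≠ 0 →
      ((b * m : ℕ) : ℤ) * (C.node₂ s).ord (C.red g u).2 ≠ T.low₂ U b z s)
    {Y : Finset (Place k F₂)} (hY : ∀ v ∈ Y, T.Missed₂ g n v) {u : F}
    (hu : u ∈ riemannRochSpace (T.D + n • C.E)) (hug : C.Mem g u) :
    (C.red g u).2 ∈ riemannRochSpace (boundDiv m n T.bar.2 C.E₂ C.node₂
      (fun s => -(T.low₂ U b z s / ((b * m : ℕ) : ℤ) +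
        if ((b * m : ℕ) : ℤ) ∣ T.low₁ U b z s ∧ ((b * m : ℕ) : ℤ) ∣ T.low₂ U b z s ∧ s ∉ X
          then 0 else 1)) Y) := by
  have hm : 0 < m := NeZero.pos m
  rcases eq_or_ne (C.red g u).2 0 with h0 | h0
  · rw [h0]; exact zero_mem _
  refine mem_rr_boundDiv hm C.node₂_injective C.node₂_off (fun s hs => (hY _ hs).1 s rfl)
    T.divisibility.2.1 (fun s => ?_) (fun v hv => ?_) fun v hvY => (hY v hvY).2 u hu hug h0
  · obtain ⟨-, hge, hiff⟩ := T.node_bounds U hm hb hg₁ hg₂ hbal hu hug s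
    have hge := hge h0
    have hdiv := Int.mul_ediv_add_emod (T.low₂ U b z s) ((b * m : ℕ) : ℤ)
    have hmod := Int.emod_nonneg (T.low₂ U b z s)
      (Nat.cast_ne_zero.mpr (Nat.mul_pos hb hm).ne' : ((b * m : ℕ) : ℤ) ≠ 0)
    have : (0 : ℤ) < ((b * m : ℕ) : ℤ) := Nat.cast_pos.mpr (Nat.mul_pos hb hm)
    split_ifs with hc
    · nlinarith
    · have := lt_of_le_of_ne hge fun heq => hc
        ⟨⟨_, ((hiff.mpr ⟨h0, heq.symm⟩).2).symm⟩, ⟨_, heq⟩, fun hs => hX s hs u hu hug h0 heq.symm⟩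
      nlinarith
  · obtain ⟨hm', hr⟩ := T.mem_pow_mul hug
    have hball := red₂_mem_ball (C := C) U.exists_zero harch (T.pow_mul_mem_rr hm hu) hm'.2 hv
    rw [show C.b₂.red (g ^ m * T.c).2 (u ^ m * T.f) = (C.red g u).2 ^ m * T.bar.2 from
      congrArg Prod.snd hr, mem_ball_iff_ord] at hball
    have h1 := hball.resolve_left (mul_ne_zero (pow_ne_zero m h0) T.bar_ne₂)
    rw [v.ord_mul (pow_ne_zero m h0) T.bar_ne₂, ← zpow_natCast, v.ord_zpow] at h1
    push_cast at h1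
    linarith

/-- For large `n`, divisors receiving all reductions fall short of `n E` by `#ι` at most. -/
private theorem exists_neg_card_le_degree (T : C.TorsionData m) (B : ℤ) :
    ∃ n₀ : ℕ, ∀ n, n₀ ≤ n → ∀ (D₁ : Divisor k F₁) (D₂ : Divisor k F₂),
      -B ≤ Divisor.degree D₁ - (n : ℤ) * Divisor.degree C.E₁ →
      -B ≤ Divisor.degree D₂ - (n : ℤ) * Divisor.degree C.E₂ →
      ell L F (T.D + n • C.E) ≤ ell k F₂ D₂ + ell k F₁ D₁ →
      -(Fintype.card ι : ℤ) ≤ Divisor.degree D₁ - (n : ℤ) * Divisor.degree C.E₁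
        + (Divisor.degree D₂ - (n : ℤ) * Divisor.degree C.E₂) := by
  obtain ⟨nd, hnd⟩ := C.dim
  obtain ⟨N, hN⟩ := exists_bound_ell (K := L) (F := F)
  obtain ⟨N₁, hN₁⟩ := exists_bound_ell (K := k) (F := F₁)
  obtain ⟨N₂, hN₂⟩ := exists_bound_ell (K := k) (F := F₂)
  refine ⟨nd + N.toNat + N₁.toNat + N₂.toNat + B.toNat, fun n hn D₁ D₂ hB₁ hB₂ hle => ?_⟩
  have hE₁ := C.degree_pos₁
  have hE₂ := C.degree_pos₂
  have hmul₁ : (n : ℤ) * 1 ≤ n * Divisor.degree C.E₁ :=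
    mul_le_mul_of_nonneg_left (by omega) (by omega)
  have hmul₂ : (n : ℤ) * 1 ≤ n * Divisor.degree C.E₂ :=
    mul_le_mul_of_nonneg_left (by omega) (by omega)
  have hmul : (n : ℤ) * 1 ≤ n * Divisor.degree C.E :=
    mul_le_mul_of_nonneg_left (by rw [C.degree_eq]; omega) (by omega)
  have e0 := hN (T.D + n • C.E) (by rw [map_add, T.degree_eq, map_nsmul, nsmul_eq_mul]; omega)
  have e1 := hN (n • C.E) (by rw [map_nsmul, nsmul_eq_mul]; omega)
  have e2 := hN₁ D₁ (by omega)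
  have e3 := hN₁ (n • C.E₁) (by rw [map_nsmul, nsmul_eq_mul]; omega)
  have e4 := hN₂ D₂ (by omega)
  have e5 := hN₂ (n • C.E₂) (by rw [map_nsmul, nsmul_eq_mul]; omega)
  have e6 := hnd n (by omega)
  rw [map_add, T.degree_eq, zero_add] at e0
  rw [map_nsmul, nsmul_eq_mul] at e0 e1 e3 e5
  simp only [ell] at e0 e1 e2 e3 e4 e5 hle
  omega

open Classical in
/-- Reductions at one pair of scales fit in the pairs with the bounded orders. -/
theorem scale_count (T : C.TorsionData m) (U : NodeUnit C) (harch : Arch π) [NeZero m] {b : ℕ}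
    (hb : 0 < b) (z : ℤ) (Y₁ : Finset (Place k F₁)) (Y₂ : Finset (Place k F₂)) :
    ∃ n₀ : ℕ, ∀ n, n₀ ≤ n → ∀ g : L × L, g.1 ≠ 0 → g.2 ≠ 0 →
      T.Balanced U g b z → ∀ X : Finset ι,
      (∀ s ∈ X, ∀ u ∈ riemannRochSpace (T.D + n • C.E), C.Mem g u → (C.red g u).2 ≠ 0 →
        ((b * m : ℕ) : ℤ) * (C.node₂ s).ord (C.red g u).2 ≠ T.low₂ U b z s) →
      (∀ v ∈ Y₁, T.Missed₁ g n v) → (∀ v ∈ Y₂, T.Missed₂ g n v) →
      ((b * m : ℕ) : ℤ) * ((Y₁.card : ℤ) + Y₂.card - Fintype.card ι) ≤ ∑ s,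
        (-((b : ℤ) * (C.node₁ s).ord T.bar.1)
        - (b : ℤ) * (C.node₂ s).ord T.bar.2
        - ((b * m : ℕ) : ℤ) * (T.low₁ U b z s / ((b * m : ℕ) : ℤ) + 1
            + T.low₂ U b z s / ((b * m : ℕ) : ℤ)
            + if ((b * m : ℕ) : ℤ) ∣ T.low₁ U b z s ∧ ((b * m : ℕ) : ℤ) ∣ T.low₂ U b z s ∧ s ∉ X
              then 0 else 1)) := by
  set D₀ : ℤ := ((b * m : ℕ) : ℤ) with hD₀
  set f₁ := floorDiv (k := k) m T.bar.1
  set f₂ := floorDiv (k := k) m T.bar.2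
  set B₁ : ℤ := ∑ s, (|(C.node₁ s).ord T.bar.1 / (m : ℤ)| + |T.low₁ U b z s / D₀| + 1)
  set B₂ : ℤ := ∑ s, (|(C.node₂ s).ord T.bar.2 / (m : ℤ)| + |T.low₂ U b z s / D₀| + 1)
  obtain ⟨n₀, hn₀⟩ := T.exists_neg_card_le_degree (|Divisor.degree f₁| + |Divisor.degree f₂| +
    B₁ + B₂ + Y₁.card + Y₂.card)
  refine ⟨n₀, fun n hn g hg₁ hg₂ hbal X hX hY₁ hY₂ => ?_⟩
  set δ : ι → ℤ := fun s =>
    if D₀ ∣ T.low₁ U b z s ∧ D₀ ∣ T.low₂ U b z s ∧ s ∉ X then 0 else 1 with hδ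
  set e₁ : ι → ℤ := fun s => -(T.low₁ U b z s / D₀ + 1)
  set e₂ : ι → ℤ := fun s => -(T.low₂ U b z s / D₀ + δ s)
  set D₁ := boundDiv m n T.bar.1 C.E₁ C.node₁ e₁ Y₁ with hD₁
  set D₂ := boundDiv m n T.bar.2 C.E₂ C.node₂ e₂ Y₂ with hD₂
  -- dimensions
  have : FiniteDimensional k (C.resSub g (riemannRochSpace (T.D + n • C.E))) :=
    C.finiteDimensional_resSub hg₁ hg₂ _
  have hdim := finrank_le_add_of_fst_snd (U₁ := riemannRochSpace D₁) (U₂ := riemannRochSpace D₂)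
    (W := C.resSub g (riemannRochSpace (T.D + n • C.E)))
    (fun w ⟨u, hu, hug, hw⟩ => hw ▸ red₂_mem_boundDiv T U harch hb hg₁ hg₂ hbal hX hY₂ hu hug)
    (fun w ⟨u, hu, hug, hw⟩ h2 =>
      hw ▸ red₁_mem_boundDiv T U harch hb hg₁ hg₂ hbal hY₁ hu hug (hw.symm ▸ h2))
  rw [C.finrank_resSub hg₁ hg₂ _] at hdim
  -- degrees
  have hdeg₁ : Divisor.degree D₁ = Divisor.degree f₁ + (n : ℤ) * Divisor.degree C.E₁
      + ∑ s, (e₁ s - (C.node₁ s).ord T.bar.1 / (m : ℤ)) - Y₁.card := degree_boundDiv ..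
  have hdeg₂ : Divisor.degree D₂ = Divisor.degree f₂ + (n : ℤ) * Divisor.degree C.E₂
      + ∑ s, (e₂ s - (C.node₂ s).ord T.bar.2 / (m : ℤ)) - Y₂.card := degree_boundDiv ..
  have hB₁ : -B₁ ≤ ∑ s, (e₁ s - (C.node₁ s).ord T.bar.1 / (m : ℤ)) :=
    neg_sum_abs_le _ _ (fun _ => 1) fun _ => le_rfl
  have hB₂ : -B₂ ≤ ∑ s, (e₂ s - (C.node₂ s).ord T.bar.2 / (m : ℤ)) :=
    neg_sum_abs_le _ _ δ fun s => by simp only [hδ]; split_ifs <;> norm_num
  have hB₁0 : 0 ≤ B₁ := Finset.sum_nonneg fun s _ => by positivity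
  have hB₂0 : 0 ≤ B₂ := Finset.sum_nonneg fun s _ => by positivity
  have := abs_nonneg (Divisor.degree f₁)
  have := abs_nonneg (Divisor.degree f₂)
  have := neg_abs_le (Divisor.degree f₁)
  have := neg_abs_le (Divisor.degree f₂)
  have hcount : (Y₁.card : ℤ) + Y₂.card - Fintype.card ι
      ≤ Divisor.degree f₁ + ∑ s, (e₁ s - (C.node₁ s).ord T.bar.1 / (m : ℤ))
      + (Divisor.degree f₂ + ∑ s, (e₂ s - (C.node₂ s).ord T.bar.2 / (m : ℤ))) := by
    have h := hn₀ n hn D₁ D₂ (by rw [hdeg₁]; linarith) (by rw [hdeg₂]; linarith) hdim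
    rw [hdeg₁, hdeg₂] at h
    linarith
  refine (mul_le_mul_of_nonneg_left hcount (Int.natCast_nonneg _)).trans_eq ?_
  rw [hD₀, Nat.cast_mul, mul_degree_add_eq _ _ e₁ e₂
    (m_mul_degree_floorDiv C.node₁_injective T.divisibility.1)
    (m_mul_degree_floorDiv C.node₂_injective T.divisibility.2.1)]
  refine Finset.sum_congr rfl fun s _ => ?_
  simp only [e₁, e₂, hδ, hD₀, Nat.cast_mul]
  ring

open Classical in
/-- The total of the two counts: no node is critical on one branch alone, and nothing is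
missed. -/
theorem count_total (T : C.TorsionData m) (U : NodeUnit C) (harch : Arch π) [NeZero m] {b : ℕ}
    (hb : 0 < b) (z : ℤ) (Y₁ : Finset (Place k F₁)) (Y₂ : Finset (Place k F₂)) :
    ∃ n₀ : ℕ, ∀ n, n₀ ≤ n → ∀ g : L × L, g.1 ≠ 0 → g.2 ≠ 0 → T.Balanced U g b z →
      ∀ X : Finset ι,
      (∀ s ∈ X, ∀ u ∈ riemannRochSpace (T.D + n • C.E), C.Mem g u → (C.red g u).2 ≠ 0 →
        ((b * m : ℕ) : ℤ) * (C.node₂ s).ord (C.red g u).2 ≠ T.low₂ U b z s) →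
      (∀ v ∈ Y₁, T.Missed₁ g n v) → (∀ v ∈ Y₂, T.Missed₂ g n v) →
      (∀ s, ¬((((b * m : ℕ) : ℤ) ∣ T.low₁ U b z s ∧ ¬((b * m : ℕ) : ℤ) ∣ T.low₂ U b z s) ∨
        (¬((b * m : ℕ) : ℤ) ∣ T.low₁ U b z s ∧ ((b * m : ℕ) : ℤ) ∣ T.low₂ U b z s) ∨
        (((b * m : ℕ) : ℤ) ∣ T.low₁ U b z s ∧ ((b * m : ℕ) : ℤ) ∣ T.low₂ U b z s ∧ s ∈ X))) ∧
          Y₁ = ∅ ∧ Y₂ = ∅ := by
  have hm : 0 < m := NeZero.pos m
  set T' := T.npow (m - 1) with hT'
  obtain ⟨n₁, hn₁⟩ := T.scale_count U harch hb z Y₁ Y₂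
  obtain ⟨n₂, hn₂⟩ := T'.scale_count U harch hb (-z) ∅ ∅
  refine ⟨n₁ + n₂, fun n hn g hg₁ hg₂ hbal X hX hY₁ hY₂ => ?_⟩
  set D₀ : ℤ := ((b * m : ℕ) : ℤ) with hD₀
  have hD₀pos : 0 < D₀ := by rw [hD₀]; exact_mod_cast Nat.mul_pos hb hm
  have h1 := hn₁ n (by omega) g hg₁ hg₂ hbal X hX hY₁ hY₂
  have hg'₁ : ((g.1 * T.c.1)⁻¹) ≠ 0 := inv_ne_zero (mul_ne_zero hg₁ T.c_ne₁)
  have hg'₂ : ((g.2 * T.c.2)⁻¹) ≠ 0 := inv_ne_zero (mul_ne_zero hg₂ T.c_ne₂)
  have hbal' : T'.Balanced U ((g.1 * T.c.1)⁻¹, (g.2 * T.c.2)⁻¹) b (-z) := by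
    have hG₁ : g.1 ^ m * T.c.1 ≠ 0 := mul_ne_zero (pow_ne_zero m hg₁) T.c_ne₁
    have hG₂ : g.2 ^ m * T.c.2 ≠ 0 := mul_ne_zero (pow_ne_zero m hg₂) T.c_ne₂
    have e : ∀ {x c : L}, x ≠ 0 → c ≠ 0 →
        ((x * c)⁻¹) ^ m * c ^ (m - 1) = (x ^ m * c)⁻¹ := fun {x c} hx hc => by
      obtain ⟨m', hm'⟩ : ∃ m', m = m' + 1 := ⟨m - 1, by omega⟩
      subst hm'
      simp only [Nat.add_sub_cancel, mul_inv, mul_pow, inv_pow, pow_succ c]
      field_simp
    have hv : A.valuation ((g.2 ^ m * T.c.2) ^ b)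
        = A.valuation ((g.1 ^ m * T.c.1) ^ b * U.Q ^ z) := hbal
    show A.valuation ((((g.2 * T.c.2)⁻¹) ^ m * (T.c ^ (m - 1)).2) ^ b)
      = A.valuation ((((g.1 * T.c.1)⁻¹) ^ m * (T.c ^ (m - 1)).1) ^ b * U.Q ^ (-z))
    rw [Prod.pow_fst, Prod.pow_snd, e hg₂ T.c_ne₂, e hg₁ T.c_ne₁, inv_pow, inv_pow, zpow_neg,
      ← mul_inv, map_inv₀, map_inv₀, hv]
  have h2 := hn₂ n (by omega) ((g.1 * T.c.1)⁻¹, (g.2 * T.c.2)⁻¹) hg'₁ hg'₂ hbal' ∅
    (fun s hs => absurd hs (Finset.notMem_empty s)) (fun v hv => absurd hv (Finset.notMem_empty v))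
    (fun v hv => absurd hv (Finset.notMem_empty v))
  have hσ₁ : ∀ s, (C.node₁ s).ord T'.bar.1 = ((m : ℤ) - 1) * (C.node₁ s).ord T.bar.1 :=
    fun s => by
      rw [hT', bar_npow, Prod.pow_fst, ← zpow_natCast, Place.ord_zpow,
        Nat.cast_sub (by omega : 1 ≤ m)]
      push_cast; ring
  have hσ₂ : ∀ s, (C.node₂ s).ord T'.bar.2 = ((m : ℤ) - 1) * (C.node₂ s).ord T.bar.2 :=
    fun s => by
      rw [hT', bar_npow, Prod.pow_snd, ← zpow_natCast, Place.ord_zpow,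
        Nat.cast_sub (by omega : 1 ≤ m)]
      push_cast; ring
  have hlow₁ : ∀ s, T'.low₁ U b (-z) s
      = -T.low₁ U b z s + -(C.node₁ s).ord T.bar.1 * D₀ := fun s => by
    simp only [low₁, hσ₁, hD₀]
    push_cast; ring
  have hlow₂ : ∀ s, T'.low₂ U b (-z) s
      = -T.low₂ U b z s + -(C.node₂ s).ord T.bar.2 * D₀ := fun s => by
    simp only [low₂, hσ₂, hD₀]
    push_cast; ring
  have hle : ∀ s, (-((b : ℤ) * (C.node₁ s).ord T.bar.1) - (b : ℤ) * (C.node₂ s).ord T.bar.2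
      - D₀ * (T.low₁ U b z s / D₀ + 1 + T.low₂ U b z s / D₀
          + if D₀ ∣ T.low₁ U b z s ∧ D₀ ∣ T.low₂ U b z s ∧ s ∉ X then 0 else 1))
    + (-((b : ℤ) * (C.node₁ s).ord T'.bar.1) - (b : ℤ) * (C.node₂ s).ord T'.bar.2
      - D₀ * (T'.low₁ U b (-z) s / D₀ + 1 + T'.low₂ U b (-z) s / D₀
          + if D₀ ∣ T'.low₁ U b (-z) s ∧ D₀ ∣ T'.low₂ U b (-z) s ∧ s ∉ (∅ : Finset ι)
            then 0 else 1))
    = D₀ * (-2 - if (D₀ ∣ T.low₁ U b z s ∧ ¬D₀ ∣ T.low₂ U b z s) ∨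
        (¬D₀ ∣ T.low₁ U b z s ∧ D₀ ∣ T.low₂ U b z s) ∨
        (D₀ ∣ T.low₁ U b z s ∧ D₀ ∣ T.low₂ U b z s ∧ s ∈ X) then 1 else 0) := fun s => by
    rw [hlow₁, hlow₂, Int.add_mul_ediv_right _ _ hD₀pos.ne',
      Int.add_mul_ediv_right _ _ hD₀pos.ne']
    have q₁ := ediv_add_ediv_neg hD₀pos (T.low₁ U b z s)
    have q₂ := ediv_add_ediv_neg hD₀pos (T.low₂ U b z s)
    simp only [dvd_add_left (dvd_mul_left D₀ _), Int.dvd_neg, Finset.notMem_empty,
      not_false_eq_true, and_true, hσ₁, hσ₂]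
    have hD : D₀ = (b : ℤ) * m := by rw [hD₀]; push_cast; ring
    by_cases p₁ : D₀ ∣ T.low₁ U b z s <;> by_cases p₂ : D₀ ∣ T.low₂ U b z s <;>
      by_cases hs : s ∈ X <;> simp only [p₁, p₂, hs, and_self, and_true, and_false,
        or_false, false_or, or_self, not_true_eq_false, not_false_eq_true,
        if_true, if_false] at q₁ q₂ ⊢ <;>
      linear_combination (-D₀) * q₁ + (-D₀) * q₂ +
        ((C.node₁ s).ord T.bar.1 + (C.node₂ s).ord T.bar.2) * hD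
  have hsum := add_le_add h1 h2
  rw [← Finset.sum_add_distrib, Finset.sum_congr rfl fun s _ => hle s, ← Finset.mul_sum,
    ← mul_add] at hsum
  have hsum' := le_of_mul_le_mul_left hsum hD₀pos
  simp only [Finset.card_empty, Nat.cast_zero, Finset.sum_sub_distrib, Finset.sum_const,
    Finset.card_univ, nsmul_eq_mul] at hsum'
  have hnn : ∀ t ∈ (Finset.univ : Finset ι), (0 : ℤ) ≤ if (D₀ ∣ T.low₁ U b z t ∧
      ¬D₀ ∣ T.low₂ U b z t) ∨ (¬D₀ ∣ T.low₁ U b z t ∧ D₀ ∣ T.low₂ U b z t) ∨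
        (D₀ ∣ T.low₁ U b z t ∧ D₀ ∣ T.low₂ U b z t ∧ t ∈ X) then 1 else 0 :=
    fun t _ => by split_ifs <;> norm_num
  have h0 := Finset.sum_nonneg hnn
  have hc₁ : (0 : ℤ) ≤ Y₁.card := Int.natCast_nonneg _
  have hc₂ : (0 : ℤ) ≤ Y₂.card := Int.natCast_nonneg _
  refine ⟨fun s hs => ?_, Finset.card_eq_zero.mp (by omega), Finset.card_eq_zero.mp (by omega)⟩
  have h1' := Finset.single_le_sum hnn (Finset.mem_univ s)
  rw [if_pos hs] at h1'
  omega

open Classical in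
/-- A node is critical on both branches or on none, and then extremal orders are reached. -/
theorem exists_exact (T : C.TorsionData m) (U : NodeUnit C) (harch : Arch π) [NeZero m] {b : ℕ}
    (hb : 0 < b) (z : ℤ) : ∃ n₀ : ℕ, ∀ n, n₀ ≤ n → ∀ s,
      (((b * m : ℕ) : ℤ) ∣ T.low₁ U b z s ↔ ((b * m : ℕ) : ℤ) ∣ T.low₂ U b z s) ∧
      (((b * m : ℕ) : ℤ) ∣ T.low₁ U b z s → ∀ g : L × L, g.1 ≠ 0 → g.2 ≠ 0 →
        T.Balanced U g b z → ∃ u ∈ riemannRochSpace (T.D + n • C.E), C.Mem g u ∧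
          ((C.red g u).1 ≠ 0 ∧
            ((b * m : ℕ) : ℤ) * (C.node₁ s).ord (C.red g u).1 = T.low₁ U b z s) ∧
          ((C.red g u).2 ≠ 0 ∧
            ((b * m : ℕ) : ℤ) * (C.node₂ s).ord (C.red g u).2 = T.low₂ U b z s)) := by
  have hm : 0 < m := NeZero.pos m
  obtain ⟨n₀, hn₀⟩ := T.count_total U harch hb z ∅ ∅
  refine ⟨n₀, fun n hn s₀ => ?_⟩
  set D₀ : ℤ := ((b * m : ℕ) : ℤ) with hD₀
  have hD₀pos : 0 < D₀ := by rw [hD₀]; exact_mod_cast Nat.mul_pos hb hm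
  have key := fun g hg₁ hg₂ hbal X hX => (hn₀ n hn g hg₁ hg₂ hbal X hX
    (fun v hv => absurd hv (Finset.notMem_empty v))
    (fun v hv => absurd hv (Finset.notMem_empty v))).1
  obtain ⟨g₀, hg₁, hg₂, hbal⟩ := T.exists_balanced U hm hb z
  have h0 := key g₀ hg₁ hg₂ hbal ∅ (fun s hs => absurd hs (Finset.notMem_empty s)) s₀
  have hiff : D₀ ∣ T.low₁ U b z s₀ ↔ D₀ ∣ T.low₂ U b z s₀ := by
    constructor <;> intro h <;> by_contra hc
    · exact h0 (Or.inl ⟨h, hc⟩)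
    · exact h0 (Or.inr (Or.inl ⟨hc, h⟩))
  refine ⟨hiff, fun h g hg₁ hg₂ hbal => ?_⟩
  by_contra hno
  refine key g hg₁ hg₂ hbal {s₀} (fun s hs u hu hug h2 heq => hno ?_) s₀
    (Or.inr (Or.inr ⟨h, hiff.mp h, Finset.mem_singleton_self s₀⟩))
  rw [Finset.mem_singleton] at hs
  subst hs
  exact ⟨u, hu, hug, (T.node_bounds U hm hb hg₁ hg₂ hbal hu hug s).2.2.mpr ⟨h2, heq⟩, h2, heq⟩

end TorsionData

end PairReduction

end FLTAgent.Semistable
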