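import Fermat.Agent.Semistable.RootData
import Fermat.Agent.Semistable.Newton
import Fermat.Agent.Semistable.Transport
import Fermat.Agent.SemistableNodes.Scale

/-!
# Poles of reductions away from the nodes

In large degree the reductions fill the compatible pairs (`resSub_one_eq_glued`); hence one
branch alone bounds the poles of a reduction away from the nodes (`red₁_mem_ball`,
`red₂_mem_ball`).
-/

set_option autoImplicit false

noncomputable section

open AlgebraicCurve FLTAgent.FFRiemannRoch FLTAgent.FFBasic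

namespace FLTAgent.Semistable

variable {L k : Type*} [Field L] [Field k] {A : ValuationSubring L} {π : A →+* k}
variable {F F₁ F₂ : Type*} [Field F] [Field F₁] [Field F₂]
  [Algebra L F] [Algebra k F₁] [Algebra k F₂] {ι : Type*} [Fintype ι]
variable [IsAlgClosed k] [IsFunctionField k F₁] [IsFunctionField k F₂]

namespace PairReduction

variable {C : PairReduction A π F F₁ F₂ ι}

theorem resSub_one_eq_glued [IsFunctionField L F] [IsAlgClosed L] :
    ∃ n₀ : ℕ, ∀ n, n₀ ≤ n →
      C.resSub (1, 1) (riemannRochSpace (n • C.E)) = C.glued n 1 := by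
  obtain ⟨b, hb⟩ := C.finrank_glued
  obtain ⟨c, hc⟩ := C.dim
  refine ⟨b + c, fun n hn => ?_⟩
  have := C.finiteDimensional_glued n (1 : ι → k)
  refine Submodule.eq_of_le_of_finrank_le ?_ ?_
  · rintro _ ⟨u, hu, hug, rfl⟩
    exact C.red_mem_glued_one hug hu
  · have h1 := hb n (by omega) 1
    have h2 := hc n (by omega)
    rw [C.finrank_resSub one_ne_zero one_ne_zero]
    unfold ell at h1
    omega

/-- For every place of the second curve off the nodes, some function is small on the first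
branch and reaches its largest possible pole there on the second. -/
theorem exists_killer [IsFunctionField L F] [IsAlgClosed L] {v : Place k F₂}
    (hv : ∀ s, v ≠ C.node₂ s) :
    ∃ (n : ℕ) (e : F), e ∈ riemannRochSpace (n • C.E) ∧ C.Mem (1, 1) e ∧
      C.b₁.red 1 e = 0 ∧ C.b₂.red 1 e ≠ 0 ∧ v.ord (C.b₂.red 1 e) = -((n : ℤ) * C.E₂ v) := by
  classical
  obtain ⟨n₀, hn₀⟩ := C.resSub_one_eq_glued
  set n := n₀ + (2 * genusFF k F₂ + Fintype.card ι) with hn
  set D : Divisor k F₂ := n • C.E₂ - ∑ s, Finsupp.single (C.node₂ s) 1 with hD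
  have hdeg : 2 * (genusFF k F₂ : ℤ) ≤ Divisor.degree D := by
    rw [hD, map_sub, map_sum, map_nsmul, nsmul_eq_mul]
    simp only [Divisor.degree_single, deg_eq_one, Finset.sum_const, Finset.card_univ, nsmul_eq_mul]
    have : (n : ℤ) * 1 ≤ n * Divisor.degree C.E₂ :=
      mul_le_mul_of_nonneg_left (by have := C.degree_pos₂; omega) (by omega)
    push_cast
    omega
  obtain ⟨y, hy, hy0, hord⟩ := exists_ord_eq_neg_of_two_mul_le v hdeg
  have hyE : y ∈ riemannRochSpace (n • C.E₂) :=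
    riemannRochSpace_mono (sub_le_self _ (Finset.sum_nonneg fun s _ =>
      single_nonneg _ zero_le_one)) hy
  have hDs : ∀ s, D (C.node₂ s) = -1 := fun s => by
    rw [hD, Finsupp.sub_apply, Finsupp.smul_apply, C.node₂_off, smul_zero, Finset.sum_apply']
    simp [Finsupp.single_apply, C.node₂_injective.eq_iff, Finset.sum_ite_eq']
  have hDv : D v = n * C.E₂ v := by
    rw [hD, Finsupp.sub_apply, Finsupp.smul_apply, nsmul_eq_mul, Finset.sum_apply']
    simp [fun s => (hv s).symm]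
  have hw : ((0, y) : F₁ × F₂) ∈ C.glued n 1 := by
    refine ⟨Submodule.zero_mem _, hyE, fun s => ?_⟩
    have h0 : HasValue (C.node₂ s) y 0 := hasValue_zero_iff.mpr (hDs s ▸ hy (C.node₂ s))
    rw [h0.valueAt_eq, (hasValue_zero (v := C.node₁ s)).valueAt_eq, mul_zero]
  rw [← hn₀ n (by omega)] at hw
  obtain ⟨e, he, heg, hred⟩ := hw
  have h2 : C.b₂.red 1 e = y := congrArg Prod.snd hred
  exact ⟨n, e, he, heg, congrArg Prod.fst hred, h2 ▸ hy0, by rw [h2, hord, hDv]⟩

/-- One branch alone bounds the poles off the nodes of that branch. -/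
theorem red₂_mem_ball [IsFunctionField L F] [IsAlgClosed L] (ht : ∃ t : A, t ≠ 0 ∧ π t = 0)
    (harch : Arch π) {n : ℕ} {u : F} (hu : u ∈ riemannRochSpace (n • C.E)) {r : L}
    (hr : C.b₂.Mem r u) {v : Place k F₂} (hv : ∀ s, v ≠ C.node₂ s) :
    C.b₂.red r u ∈ ball v ((n : ℤ) * C.E₂ v) := by
  rcases eq_or_ne (C.b₂.red r u) 0 with h0 | h0
  · rw [h0]; exact Submodule.zero_mem _
  have hu0 : u ≠ 0 := fun h => h0 (by rw [h, C.b₂.red_zero])
  obtain ⟨c₁, hc₁0, hc₁, -⟩ := C.b₁.exists_red_ne_zero hu0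
  obtain ⟨N', e, he, heg, he₁, he₂, hord⟩ := C.exists_killer hv
  obtain ⟨c, hcA, hce⟩ := C.b₁.exists_small ht heg.1 he₁
  have hc1 : 1 < A.valuation c := not_le.mp fun h => hcA ((A.valuation_le_one_iff c).mp h)
  have hc0 : c ≠ 0 := fun h => hcA (h ▸ A.zero_mem)
  obtain ⟨N, hN⟩ := harch.exists_pow_le C.π_surj (t := c⁻¹) (b := c₁ / r)
    (by rw [map_inv₀]; exact inv_lt_one_of_one_lt₀ hc1)
    (div_ne_zero hc₁0 (C.b₂.scale_ne_zero h0))
  have hm₁ : C.b₁.Mem r (u * e ^ N) := by
    have h1 : C.b₁.Mem (c₁ * c ^ N) (u * e ^ N) := Branch.Mem.mul _ hc₁ (Branch.Mem.pow _ hce N)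
    refine C.b₁.mem_of_le (mul_ne_zero hc₁0 (pow_ne_zero N hc0)) ?_ h1
    rw [map_mul, map_pow]
    rw [map_inv₀, map_div₀, inv_pow, inv_le_iff_one_le_mul₀ (pow_pos (zero_lt_one.trans hc1) N),
      div_mul_eq_mul_div, one_le_div₀] at hN
    · exact hN
    · exact zero_lt_iff.mpr ((Valuation.ne_zero_iff _).mpr (C.b₂.scale_ne_zero h0))
  have hm₂ : C.b₂.Mem r (u * e ^ N) := by
    have := Branch.Mem.mul _ hr (Branch.Mem.pow _ heg.2 N)
    rwa [one_pow, mul_one] at this
  have hrr : r • (u * e ^ N) ∈ riemannRochSpace ((n + N * N') • C.E) := by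
    refine Submodule.smul_mem _ r ?_
    rw [add_nsmul, mul_nsmul']
    exact mul_mem_riemannRochSpace hu (pow_mem_riemannRochSpace he N)
  have hreg := C.reg₂ _ _ hm₁ hm₂ hrr
  have hres : C.b₂.res ⟨r • (u * e ^ N), hm₂⟩ = C.b₂.red r u * C.b₂.red 1 e ^ N := by
    rw [← C.b₂.red_eq hm₂, ← C.b₂.red_pow heg.2, ← C.b₂.red_mul hr (Branch.Mem.pow _ heg.2 N),
      one_pow, mul_one]
  rw [hres, mem_riemannRochSpace_iff] at hreg
  have h := (hreg v).resolve_left (mul_ne_zero h0 (pow_ne_zero N he₂))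
  rw [v.ord_mul h0 (pow_ne_zero N he₂), ← zpow_natCast, v.ord_zpow, hord, Finsupp.smul_apply,
    nsmul_eq_mul, Nat.cast_add, Nat.cast_mul] at h
  refine (mem_ball_iff_ord v).mpr (Or.inr ?_)
  linarith

/-- The same for the first branch. -/
theorem red₁_mem_ball [IsFunctionField L F] [IsAlgClosed L] (ht : ∃ t : A, t ≠ 0 ∧ π t = 0)
    (harch : Arch π) {n : ℕ} {u : F} (hu : u ∈ riemannRochSpace (n • C.E)) {r : L}
    (hr : C.b₁.Mem r u) {v : Place k F₁} (hv : ∀ s, v ≠ C.node₁ s) :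
    C.b₁.red r u ∈ ball v ((n : ℤ) * C.E₁ v) :=
  red₂_mem_ball (C := C.swap) ht harch hu hr hv

end PairReduction

end FLTAgent.Semistable
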