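import Fermat.Agent.Semistable.PairLattice
import Fermat.Agent.SemistableNodes.Scale
import Mathlib.Data.Int.LeastGreatest
import Mathlib.LinearAlgebra.Dual.Lemmas
import Mathlib.RingTheory.Finiteness.Defs

/-!
# Rational forms: reductions split along the branches

Functions defined over a subfield with discrete values (`RatForm`): at a pair of scales whose
ratio is not a value of the subfield (`Apart`), the reductions of a rationally spanned space split
along the branches, and in general they are spanned by the reductions of rational functions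
(`resSub_le_span_gens`).
-/

set_option autoImplicit false

noncomputable section

open AlgebraicCurve

namespace FLTAgent.Semistable

variable {L k : Type*} [Field L] [Field k] {A : ValuationSubring L} {π : A →+* k}
variable {F F₁ F₂ : Type*} [Field F] [Field F₁] [Field F₂]
  [Algebra L F] [Algebra k F₁] [Algebra k F₂] {ι : Type*} [Fintype ι]

namespace PairReduction

/-- A subfield of constants with discrete values and full residue field, and the functions
defined over it. -/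
structure RatForm (C : PairReduction A π F F₁ F₂ ι) where
  K : Subfield L
  ϖ : L
  ϖ_mem : ϖ ∈ K
  ϖ_ne : ϖ ≠ 0
  ϖ_lt : A.valuation ϖ < 1
  S : AddSubgroup F
  smul_mem : ∀ c ∈ K, ∀ w ∈ S, c • w ∈ S
  exists_norm₁ : ∀ w ∈ S, w ≠ 0 → ∃ z : ℤ, C.b₁.Mem (ϖ ^ z) w ∧ C.b₁.red (ϖ ^ z) w ≠ 0
  exists_norm₂ : ∀ w ∈ S, w ≠ 0 → ∃ z : ℤ, C.b₂.Mem (ϖ ^ z) w ∧ C.b₂.red (ϖ ^ z) w ≠ 0
  exists_res : ∀ c : k, ∃ a : A, (a : L) ∈ K ∧ π a = c

variable {C : PairReduction A π F F₁ F₂ ι}

namespace RatForm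

variable (R : RatForm C)

theorem valuation₁ {y : F} (hy : y ∈ R.S) {g : L × L} (hm : C.Mem g y)
    (h : (C.red g y).1 ≠ 0) : ∃ z : ℤ, A.valuation g.1 = A.valuation (R.ϖ ^ z) := by
  obtain ⟨z, hz, hz'⟩ := R.exists_norm₁ y hy fun h0 => h (by rw [h0, C.red_zero]; rfl)
  exact ⟨z, C.b₁.valuation_eq_of_red_ne_zero C.π_surj hm.1 h hz hz'⟩

theorem valuation₂ {y : F} (hy : y ∈ R.S) {g : L × L} (hm : C.Mem g y)
    (h : (C.red g y).2 ≠ 0) : ∃ z : ℤ, A.valuation g.2 = A.valuation (R.ϖ ^ z) := by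
  obtain ⟨z, hz, hz'⟩ := R.exists_norm₂ y hy fun h0 => h (by rw [h0, C.red_zero]; rfl)
  exact ⟨z, C.b₂.valuation_eq_of_red_ne_zero C.π_surj hm.2 h hz hz'⟩

/-- The ratio of the scales is not a value of the subfield. -/
def Apart (g : L × L) : Prop := ∀ j : ℤ, A.valuation g.2 ≠ A.valuation (g.1 * R.ϖ ^ j)

theorem Apart.pure {R : RatForm C} {g : L × L} (hg : R.Apart g) {y : F} (hy : y ∈ R.S) {l : L}
    (hm : C.Mem (g * (l, l)) y) :
    (C.red (g * (l, l)) y).1 = 0 ∨ (C.red (g * (l, l)) y).2 = 0 := by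
  by_contra h
  push Not at h
  obtain ⟨z₁, e₁⟩ := R.valuation₁ hy hm h.1
  obtain ⟨z₂, e₂⟩ := R.valuation₂ hy hm h.2
  have hl : l ≠ 0 := fun h0 => C.b₁.scale_ne_zero h.1 (by simp [h0])
  refine hg (z₂ - z₁) ?_
  simp only [Prod.fst_mul, Prod.snd_mul, map_mul] at e₁ e₂
  have hv : A.valuation (R.ϖ ^ z₁) ≠ 0 :=
    (Valuation.ne_zero_iff _).mpr (zpow_ne_zero _ R.ϖ_ne)
  rw [map_mul, zpow_sub₀ R.ϖ_ne, map_div₀, ← e₁, ← e₂]
  rw [← e₁] at hv
  obtain ⟨h1, h2⟩ := mul_ne_zero_iff.mp hv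
  field_simp

theorem exists_scale {g : L × L} (hg₁ : g.1 ≠ 0) (hg₂ : g.2 ≠ 0) {y : F} (hy : y ≠ 0) :
    ∃ l : L, l ≠ 0 ∧ C.Mem (g * (l, l)) y ∧ C.red (g * (l, l)) y ≠ 0 := by
  obtain ⟨c₁, hc₁, hm₁, hr₁⟩ := C.b₁.exists_red_ne_zero hy
  obtain ⟨c₂, hc₂, hm₂, hr₂⟩ := C.b₂.exists_red_ne_zero hy
  rcases le_total (A.valuation (c₁ / g.1)) (A.valuation (c₂ / g.2)) with h | h
  · refine ⟨c₁ / g.1, div_ne_zero hc₁ hg₁, ⟨?_, ?_⟩, fun h0 => hr₁ ?_⟩
    · show C.b₁.Mem (g.1 * (c₁ / g.1)) y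
      rwa [mul_div_cancel₀ _ hg₁]
    · refine C.b₂.mem_of_le hc₂ ?_ hm₂
      calc A.valuation (g.2 * (c₁ / g.1)) ≤ A.valuation (g.2 * (c₂ / g.2)) := by
            rw [map_mul, map_mul A.valuation g.2]; exact mul_le_mul' le_rfl h
        _ = A.valuation c₂ := by rw [mul_div_cancel₀ _ hg₂]
    · have := congrArg Prod.fst h0
      simp only [PairReduction.red, Prod.fst_mul, mul_div_cancel₀ _ hg₁] at this
      exact this
  · refine ⟨c₂ / g.2, div_ne_zero hc₂ hg₂, ⟨?_, ?_⟩, fun h0 => hr₂ ?_⟩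
    · refine C.b₁.mem_of_le hc₁ ?_ hm₁
      calc A.valuation (g.1 * (c₂ / g.2)) ≤ A.valuation (g.1 * (c₁ / g.1)) := by
            rw [map_mul, map_mul A.valuation g.1]; exact mul_le_mul' le_rfl h
        _ = A.valuation c₁ := by rw [mul_div_cancel₀ _ hg₁]
    · show C.b₂.Mem (g.2 * (c₂ / g.2)) y
      rwa [mul_div_cancel₀ _ hg₂]
    · have := congrArg Prod.snd h0
      simp only [PairReduction.red, Prod.snd_mul, mul_div_cancel₀ _ hg₂] at this
      exact this

/-- Reductions of rescaled rational elements of `W`. -/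
def gens (g : L × L) (W : Submodule L F) : Set (F₁ × F₂) :=
  {p | ∃ y ∈ R.S, y ∈ W ∧ ∃ l : L, C.Mem (g * (l, l)) y ∧ C.red (g * (l, l)) y = p}

/-- A reduction with comparable scales is matched by a rational combination. -/
theorem exists_cancel {g : L × L} {W : Submodule L F} {l : L} (hl : l ≠ 0) {n : ℕ}
    (κ : Fin n → k) (y : Fin n → F) (hyS : ∀ j, y j ∈ R.S) (hyW : ∀ j, y j ∈ W)
    (μ : Fin n → L) (hμ : ∀ j, C.Mem (g * (μ j, μ j)) (y j)) (i : Fin n → ℤ)
    (hi : ∀ j, κ j ≠ 0 → A.valuation (μ j) = A.valuation (l * R.ϖ ^ i j)) :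
    ∃ x, x ∈ R.S ∧ x ∈ W ∧ C.Mem (g * (l, l)) x ∧
      C.red (g * (l, l)) x = ∑ j, κ j • C.red (g * (μ j, μ j)) (y j) := by
  classical
  have key : ∀ j, ∃ x, x ∈ R.S ∧ x ∈ W ∧ C.Mem (g * (l, l)) x ∧
      C.red (g * (l, l)) x = κ j • C.red (g * (μ j, μ j)) (y j) := by
    intro j
    rcases eq_or_ne (κ j) 0 with h0 | h0
    · exact ⟨0, R.S.zero_mem, W.zero_mem, C.mem_zero _, by rw [h0, zero_smul, C.red_zero]⟩
    have hv := hi j h0
    have hμ0 : μ j ≠ 0 := fun h => by
      rw [h, map_zero] at hv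
      exact mul_ne_zero hl (zpow_ne_zero _ R.ϖ_ne) ((map_eq_zero A.valuation).mp hv.symm)
    have hu : A.valuation (l * R.ϖ ^ i j / μ j) = 1 := by
      rw [map_div₀, ← hv, div_self ((Valuation.ne_zero_iff _).mpr hμ0)]
    set u : A := ⟨l * R.ϖ ^ i j / μ j, (A.valuation_le_one_iff _).mp hu.le⟩ with hu'
    have hπu : π u ≠ 0 := π_ne_zero_of_eq_one hu
    obtain ⟨a, haK, ha⟩ := R.exists_res (κ j / π u)
    have hc : ((a : L) * R.ϖ ^ i j) ∈ R.K := mul_mem haK (zpow_mem R.ϖ_mem _)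
    have hscal : (l, l) * ((a : L) * R.ϖ ^ i j, (a : L) * R.ϖ ^ i j)
        = (μ j, μ j) * ((((a * u : A)) : L), (((a * u : A)) : L)) := by
      refine Prod.ext ?_ ?_ <;>
      · simp only [Prod.fst_mul, Prod.snd_mul, hu', MulMemClass.coe_mul]
        field_simp
    have hm : C.Mem (g * (μ j, μ j) * ((((a * u : A)) : L), (((a * u : A)) : L))) (y j) :=
      C.mem_smul_iff.mp ((hμ j).smul (a * u))
    refine ⟨((a : L) * R.ϖ ^ i j) • y j, R.smul_mem _ hc _ (hyS j), W.smul_mem _ (hyW j), ?_, ?_⟩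
    · rw [C.mem_smul_iff, mul_assoc, hscal, ← mul_assoc]
      exact hm
    · have e : C.red (g * (l, l)) (((a : L) * R.ϖ ^ i j) • y j)
          = C.red (g * (μ j, μ j)) ((((a * u : A)) : L) • y j) := by
        have h' : C.Mem (g * (l, l) * ((a : L) * R.ϖ ^ i j, (a : L) * R.ϖ ^ i j)) (y j) := by
          rw [mul_assoc, hscal, ← mul_assoc]; exact hm
        refine Prod.ext ?_ ?_
        · show C.b₁.red _ _ = C.b₁.red _ _
          rw [C.b₁.red_smul_eq h'.1, C.b₁.red_smul_eq hm.1]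
          refine congrArg (fun t => C.b₁.red t (y j)) ?_
          have := congrArg (fun p : L × L => g.1 * p.1) hscal
          simpa only [Prod.fst_mul, ← mul_assoc] using this
        · show C.b₂.red _ _ = C.b₂.red _ _
          rw [C.b₂.red_smul_eq h'.2, C.b₂.red_smul_eq hm.2]
          refine congrArg (fun t => C.b₂.red t (y j)) ?_
          have := congrArg (fun p : L × L => g.2 * p.2) hscal
          simpa only [Prod.snd_mul, ← mul_assoc] using this
      rw [e, red_smul (hμ j), map_mul, ha, div_mul_cancel₀ _ hπu]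
  choose x hxS hxW hxm hxr using key
  exact ⟨∑ j, x j, AddSubgroup.sum_mem _ fun j _ => hxS j, Submodule.sum_mem _ fun j _ => hxW j,
    Mem.sum fun j _ => hxm j, by
      rw [red_sum fun j _ => hxm j]; exact Finset.sum_congr rfl fun j _ => hxr j⟩

/-- A nonzero reduction in the span of rational reductions is reached by a rational element at
the same scale. -/
theorem exists_match {g : L × L} (hg₁ : g.1 ≠ 0) (hg₂ : g.2 ≠ 0)
    {W : Submodule L F} {y : F} (hy : y ∈ R.S) {l : L} (hl : l ≠ 0)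
    (hm : C.Mem (g * (l, l)) y) (hne : C.red (g * (l, l)) y ≠ 0)
    (hspan : C.red (g * (l, l)) y ∈ Submodule.span k (R.gens g W)) :
    ∃ x, x ∈ R.S ∧ x ∈ W ∧ C.Mem (g * (l, l)) x ∧
      C.red (g * (l, l)) x = C.red (g * (l, l)) y := by
  classical
  obtain ⟨n, κ, p, hp⟩ := Submodule.mem_span_set'.mp hspan
  choose z hzS hzW μ hμ hμr using fun j => (p j).2
  rw [Finset.sum_congr rfl fun j _ => by rw [← hμr j]] at hp
  have hϖ : ∀ e : ℤ, A.valuation (R.ϖ ^ e) ≠ 0 := fun e =>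
    (Valuation.ne_zero_iff _).mpr (zpow_ne_zero _ R.ϖ_ne)
  by_cases hg : R.Apart g
  swap
  · unfold Apart at hg
    push Not at hg
    obtain ⟨d, hd⟩ := hg
    -- all scales are comparable through the first one
    have hfirst : ∀ {u : F} {μ : L}, u ∈ R.S → C.Mem (g * (μ, μ)) u →
        C.red (g * (μ, μ)) u ≠ 0 → ∃ i : ℤ, A.valuation (g.1 * μ) = A.valuation (R.ϖ ^ i) := by
      intro u μ hu hum hur
      by_cases h : (C.red (g * (μ, μ)) u).1 = 0
      · obtain ⟨i, hi⟩ := R.valuation₂ hu hum fun h' => hur (Prod.ext h h')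
        refine ⟨i - d, mul_right_cancel₀ (hϖ d) ?_⟩
        simp only [Prod.snd_mul, map_mul, hd] at hi
        rw [zpow_sub₀ R.ϖ_ne, map_div₀, div_mul_cancel₀ _ (hϖ d), ← hi, map_mul]
        exact mul_right_comm _ _ _
      · exact R.valuation₁ hu hum h
    obtain ⟨e, he⟩ := hfirst hy hm hne
    have hex : ∀ j, ∃ i : ℤ, C.red (g * (μ j, μ j)) (z j) ≠ 0 →
        A.valuation (μ j) = A.valuation (l * R.ϖ ^ i) := fun j => by
      by_cases h : C.red (g * (μ j, μ j)) (z j) = 0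
      · exact ⟨0, fun h' => absurd h h'⟩
      obtain ⟨e', he'⟩ := hfirst (hzS j) (hμ j) h
      refine ⟨e' - e, fun _ => mul_left_cancel₀ ((Valuation.ne_zero_iff A.valuation).mpr hg₁) ?_⟩
      rw [map_mul] at he he'
      rw [map_mul, zpow_sub₀ R.ϖ_ne, map_div₀, ← mul_assoc, he, he', mul_div_cancel₀ _ (hϖ e)]
    choose i hi using hex
    obtain ⟨x, hxS, hxW, hxm, hxr⟩ := R.exists_cancel (g := g) (W := W) hl
      (fun j => if C.red (g * (μ j, μ j)) (z j) = 0 then 0 else κ j) z hzS hzW μ hμ i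
      (fun j hj => hi j fun h => hj (by rw [if_pos h]))
    refine ⟨x, hxS, hxW, hxm, hxr.trans ?_⟩
    rw [← hp]
    refine Finset.sum_congr rfl fun j _ => ?_
    split_ifs with h
    · rw [zero_smul, h, smul_zero]
    · rfl
  rcases hg.pure hy hm with h1 | h2
  · have h2 : (C.red (g * (l, l)) y).2 ≠ 0 := fun h => hne (Prod.ext h1 h)
    obtain ⟨e, he⟩ := R.valuation₂ hy hm h2
    have hex : ∀ j, ∃ i : ℤ, (C.red (g * (μ j, μ j)) (z j)).2 ≠ 0 →
        A.valuation (μ j) = A.valuation (l * R.ϖ ^ i) := fun j => by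
      by_cases h : (C.red (g * (μ j, μ j)) (z j)).2 = 0
      · exact ⟨0, fun h' => absurd h h'⟩
      obtain ⟨e', he'⟩ := R.valuation₂ (hzS j) (hμ j) h
      refine ⟨e' - e, fun _ => mul_left_cancel₀ ((Valuation.ne_zero_iff A.valuation).mpr hg₂) ?_⟩
      simp only [Prod.snd_mul, map_mul] at he he'
      rw [map_mul, zpow_sub₀ R.ϖ_ne, map_div₀, ← mul_assoc, he, he', mul_div_cancel₀ _ (hϖ e)]
    choose i hi using hex
    obtain ⟨x, hxS, hxW, hxm, hxr⟩ := R.exists_cancel (g := g) (W := W) hl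
      (fun j => if (C.red (g * (μ j, μ j)) (z j)).2 = 0 then 0 else κ j) z hzS hzW μ hμ i
      (fun j hj => hi j fun h => hj (by rw [if_pos h]))
    refine ⟨x, hxS, hxW, hxm, hxr.trans (Prod.ext ?_ ?_)⟩
    · rw [Prod.fst_sum, h1]
      refine Finset.sum_eq_zero fun j _ => ?_
      split_ifs with h
      · rw [zero_smul]; rfl
      · rw [Prod.smul_fst, (hg.pure (hzS j) (hμ j)).resolve_right h, smul_zero]
    · rw [← hp, Prod.snd_sum, Prod.snd_sum]
      refine Finset.sum_congr rfl fun j _ => ?_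
      split_ifs with h
      · rw [zero_smul, Prod.smul_snd, h, smul_zero]; rfl
      · rfl
  · have h1 : (C.red (g * (l, l)) y).1 ≠ 0 := fun h => hne (Prod.ext h h2)
    obtain ⟨e, he⟩ := R.valuation₁ hy hm h1
    have hex : ∀ j, ∃ i : ℤ, (C.red (g * (μ j, μ j)) (z j)).1 ≠ 0 →
        A.valuation (μ j) = A.valuation (l * R.ϖ ^ i) := fun j => by
      by_cases h : (C.red (g * (μ j, μ j)) (z j)).1 = 0
      · exact ⟨0, fun h' => absurd h h'⟩
      obtain ⟨e', he'⟩ := R.valuation₁ (hzS j) (hμ j) h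
      refine ⟨e' - e, fun _ => mul_left_cancel₀ ((Valuation.ne_zero_iff A.valuation).mpr hg₁) ?_⟩
      simp only [Prod.fst_mul, map_mul] at he he'
      rw [map_mul, zpow_sub₀ R.ϖ_ne, map_div₀, ← mul_assoc, he, he', mul_div_cancel₀ _ (hϖ e)]
    choose i hi using hex
    obtain ⟨x, hxS, hxW, hxm, hxr⟩ := R.exists_cancel (g := g) (W := W) hl
      (fun j => if (C.red (g * (μ j, μ j)) (z j)).1 = 0 then 0 else κ j) z hzS hzW μ hμ i
      (fun j hj => hi j fun h => hj (by rw [if_pos h]))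
    refine ⟨x, hxS, hxW, hxm, hxr.trans (Prod.ext ?_ ?_)⟩
    · rw [← hp, Prod.fst_sum, Prod.fst_sum]
      refine Finset.sum_congr rfl fun j _ => ?_
      split_ifs with h
      · rw [zero_smul, Prod.smul_fst, h, smul_zero]; rfl
      · rfl
    · rw [Prod.snd_sum, h2]
      refine Finset.sum_eq_zero fun j _ => ?_
      split_ifs with h
      · rw [zero_smul]; rfl
      · rw [Prod.smul_snd, (hg.pure (hzS j) (hμ j)).resolve_left h, smul_zero]

theorem exists_greatest_scale (harch : Arch π) {c : L} (hc : c ≠ 0) {P : L → Prop} {B : L}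
    (hB : B ≠ 0) (hbd : ∀ l, P l → A.valuation l ≤ A.valuation B)
    (hval : ∀ l, P l → ∃ z : ℤ, A.valuation (c * l) = A.valuation (R.ϖ ^ z))
    (hP : ∃ l, P l) : ∃ l, P l ∧ ∀ l', P l' → A.valuation l' ≤ A.valuation l := by
  obtain ⟨z₀, hz₀⟩ :=
    harch.exists_le_of_zpow_le C.π_surj R.ϖ_ne R.ϖ_lt (mul_ne_zero hc hB)
  obtain ⟨z, ⟨l, hl, hlz⟩, hmin⟩ := Int.exists_least_of_bdd
    (P := fun z => ∃ l, P l ∧ A.valuation (c * l) = A.valuation (R.ϖ ^ z))
    ⟨z₀, fun z ⟨l, hl, he⟩ => hz₀ z (by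
      rw [← map_zpow₀, ← he, map_mul, map_mul]
      exact mul_le_mul' le_rfl (hbd l hl))⟩
    (by obtain ⟨l, hl⟩ := hP; obtain ⟨z, hz⟩ := hval l hl; exact ⟨z, l, hl, hz⟩)
  refine ⟨l, hl, fun l' hl' => ?_⟩
  obtain ⟨z', hz'⟩ := hval l' hl'
  have hle : A.valuation (c * l') ≤ A.valuation (c * l) := by
    rw [hlz, hz', map_zpow₀, map_zpow₀]
    exact zpow_le_zpow_right_of_le_one₀
      (zero_lt_iff.mpr ((Valuation.ne_zero_iff _).mpr R.ϖ_ne)) R.ϖ_lt.le (hmin z' ⟨l', hl', hz'⟩)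
  rw [map_mul, map_mul] at hle
  exact le_of_mul_le_mul_left hle (zero_lt_iff.mpr ((Valuation.ne_zero_iff _).mpr hc))

/-- One more rational vector: its reduction enlarges the span. -/
theorem span_gens_step (harch : Arch π) {g : L × L} (hg₁ : g.1 ≠ 0) (hg₂ : g.2 ≠ 0)
    (t : Finset F) {w : F}
    (hw : w ∈ R.S) (hwt : w ∉ Submodule.span L (t : Set F))
    (ih : C.resSub g (Submodule.span L (t : Set F)) ≤
      Submodule.span k (R.gens g (Submodule.span L (t : Set F)))) :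
    C.resSub g (Submodule.span L (insert w (t : Set F))) ≤
      Submodule.span k (R.gens g (Submodule.span L (insert w (t : Set F)))) := by
  classical
  set W := Submodule.span L (t : Set F) with hW
  set W' := Submodule.span L (insert w (t : Set F)) with hW'
  have hsub : W ≤ W' := Submodule.span_mono (Set.subset_insert _ _)
  have hwW' : w ∈ W' := Submodule.subset_span (Set.mem_insert _ _)
  have : FiniteDimensional L W := FiniteDimensional.span_of_finite L t.finite_toSet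
  have : FiniteDimensional L W' :=
    FiniteDimensional.span_of_finite L (t.finite_toSet.insert w)
  have := C.finiteDimensional_resSub hg₁ hg₂ W
  have := C.finiteDimensional_resSub hg₁ hg₂ W'
  have hmono : Submodule.span k (R.gens g W) ≤ Submodule.span k (R.gens g W') :=
    Submodule.span_mono fun p ⟨y, h1, h2, h3⟩ => ⟨y, h1, hsub h2, h3⟩
  suffices h : ∃ y ∈ R.S, y ∈ W' ∧ ∃ l : L, C.Mem (g * (l, l)) y ∧
      C.red (g * (l, l)) y ∉ C.resSub g W by
    obtain ⟨y, hyS, hyW, l, hyl, hnot⟩ := h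
    set P := C.resSub g W ⊔ Submodule.span k {C.red (g * (l, l)) y} with hP
    have hPle : P ≤ C.resSub g W' := sup_le (C.resSub_mono hsub)
      (Submodule.span_le.mpr (Set.singleton_subset_iff.mpr ⟨l • y, W'.smul_mem l hyW,
        C.mem_smul_iff.mpr hyl, Prod.ext (C.b₁.red_smul_eq hyl.1) (C.b₂.red_smul_eq hyl.2)⟩))
    have : FiniteDimensional k P := Submodule.finiteDimensional_of_le hPle
    have hlt : C.resSub g W < P := by
      refine lt_of_le_of_ne le_sup_left fun he => hnot ?_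
      rw [he]
      exact Submodule.mem_sup_right (Submodule.mem_span_singleton_self _)
    have h1 := Submodule.finrank_lt_finrank_of_lt hlt
    have h2 := Submodule.finrank_mono hPle
    rw [C.finrank_resSub hg₁ hg₂] at h1 h2
    have h3 : Module.finrank L W' ≤ Module.finrank L W + 1 := by
      rw [hW', Submodule.span_insert]
      refine (Submodule.finrank_add_le_finrank_add_finrank _ _).trans ?_
      rw [finrank_span_singleton (fun h0 => hwt (by rw [h0]; exact zero_mem _)), add_comm]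
    have heq : P = C.resSub g W' := Submodule.eq_of_le_of_finrank_le hPle (by
      rw [C.finrank_resSub hg₁ hg₂]; omega)
    rw [← heq]
    exact sup_le (ih.trans hmono) (Submodule.span_le.mpr (Set.singleton_subset_iff.mpr
      (Submodule.subset_span ⟨y, hyS, hyW, l, hyl, rfl⟩)))
  by_contra hno
  push Not at hno
  -- scales of rational translates of `w` are bounded
  obtain ⟨φ, hφw, hφW⟩ := Submodule.exists_dual_map_eq_bot_of_notMem hwt inferInstance
  have hφW' : ∀ x ∈ W, φ x = 0 := fun x hx => by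
    have : φ x ∈ W.map φ := Submodule.mem_map_of_mem hx
    rwa [hφW, Submodule.mem_bot] at this
  obtain ⟨b, hbV, hb, hbli⟩ := C.exists_basis hg₁ hg₂ W'
  have hbspan : Submodule.span L (Set.range b) = W' := by
    refine Submodule.eq_of_le_of_finrank_eq
      (Submodule.span_le.mpr (Set.range_subset_iff.mpr hbV)) ?_
    rw [finrank_span_eq_card (C.linearIndependent_of_red hb hbli), Fintype.card_fin]
  let P : L → Prop := fun l => ∃ x ∈ R.S, x ∈ W ∧ C.Mem (g * (l, l)) (w + x) ∧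
    C.red (g * (l, l)) (w + x) ≠ 0
  have hbound : ∃ B : L, B ≠ 0 ∧ ∀ l, P l → A.valuation l ≤ A.valuation B := by
    have hne : (Finset.univ : Finset (Fin (Module.finrank L W'))).Nonempty := by
      by_contra h
      rw [Finset.not_nonempty_iff_eq_empty, Finset.univ_eq_empty_iff] at h
      have : W' = ⊥ := by
        rw [← hbspan, Submodule.span_eq_bot]
        rintro _ ⟨i, rfl⟩
        exact (IsEmpty.false i).elim
      exact hwt (by rw [(Submodule.eq_bot_iff _).mp this w hwW']; exact zero_mem _)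
    obtain ⟨i, -, hi⟩ := Finset.exists_max_image Finset.univ (fun i => A.valuation (φ (b i))) hne
    have hbd : ∀ l, P l → A.valuation l * A.valuation (φ w) ≤ A.valuation (φ (b i)) := by
      rintro l ⟨x, -, hxW, hm, -⟩
      have hmem : C.Mem g (l • (w + x)) := C.mem_smul_iff.mpr hm
      have hin : l • (w + x) ∈ Submodule.span L (Set.range b) := by
        rw [hbspan]; exact W'.smul_mem l (W'.add_mem hwW' (hsub hxW))
      obtain ⟨c, hc⟩ := (Submodule.mem_span_range_iff_exists_fun L).mp hin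
      have hcA := C.coord_mem hb hbli (hc ▸ hmem)
      have he : l * φ w = ∑ j, c j * φ (b j) := by
        have := congrArg φ hc
        rw [map_sum, map_smul, map_add, hφW' x hxW, add_zero] at this
        simpa [map_smul, smul_eq_mul] using this.symm
      rw [← map_mul, he]
      refine A.valuation.map_sum_le fun j _ => ?_
      rw [map_mul]
      exact le_trans (mul_le_of_le_one_left' ((A.valuation_le_one_iff _).mpr (hcA j)))
        (hi j (Finset.mem_univ j))
    by_cases h0 : φ (b i) = 0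
    · refine ⟨1, one_ne_zero, fun l hl => ?_⟩
      have := hbd l hl
      rw [h0, map_zero, nonpos_iff_eq_zero, mul_eq_zero] at this
      rcases this with h | h
      · rw [h]; exact zero_le
      · exact absurd ((map_eq_zero A.valuation).mp h) hφw
    · refine ⟨φ (b i) / φ w, div_ne_zero h0 hφw, fun l hl => ?_⟩
      rw [map_div₀, le_div_iff₀ (zero_lt_iff.mpr ((Valuation.ne_zero_iff _).mpr hφw))]
      exact hbd l hl
  obtain ⟨B, hB0, hB⟩ := hbound
  have hbase : ∀ x ∈ R.S, x ∈ W → w + x ≠ 0 := fun x _ hxW h =>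
    hwt (by rw [eq_neg_of_add_eq_zero_left h]; exact W.neg_mem hxW)
  -- the largest scale
  let P₁ : L → Prop := fun l => ∃ x ∈ R.S, x ∈ W ∧ C.Mem (g * (l, l)) (w + x) ∧
    (C.red (g * (l, l)) (w + x)).1 ≠ 0
  let P₂ : L → Prop := fun l => ∃ x ∈ R.S, x ∈ W ∧ C.Mem (g * (l, l)) (w + x) ∧
    (C.red (g * (l, l)) (w + x)).2 ≠ 0
  have hP₁ : ∀ l, P₁ l → P l := fun l ⟨x, h1, h2, h3, h4⟩ =>
    ⟨x, h1, h2, h3, fun h => h4 (congrArg Prod.fst h)⟩
  have hP₂ : ∀ l, P₂ l → P l := fun l ⟨x, h1, h2, h3, h4⟩ =>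
    ⟨x, h1, h2, h3, fun h => h4 (congrArg Prod.snd h)⟩
  have hv₁ : ∀ l, P₁ l → ∃ z : ℤ, A.valuation (g.1 * l) = A.valuation (R.ϖ ^ z) :=
    fun l ⟨x, h1, _, h3, h4⟩ => R.valuation₁ (R.S.add_mem hw h1) h3 h4
  have hv₂ : ∀ l, P₂ l → ∃ z : ℤ, A.valuation (g.2 * l) = A.valuation (R.ϖ ^ z) :=
    fun l ⟨x, h1, _, h3, h4⟩ => R.valuation₂ (R.S.add_mem hw h1) h3 h4
  have hor : ∀ l, P l → P₁ l ∨ P₂ l := fun l ⟨x, h1, h2, h3, h4⟩ => by
    by_cases h : (C.red (g * (l, l)) (w + x)).1 = 0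
    · exact Or.inr ⟨x, h1, h2, h3, fun h' => h4 (Prod.ext h h')⟩
    · exact Or.inl ⟨x, h1, h2, h3, h⟩
  have hex : ∃ l, P l := by
    obtain ⟨l, -, hm, hr⟩ := exists_scale (C := C) hg₁ hg₂ (hbase 0 R.S.zero_mem W.zero_mem)
    exact ⟨l, 0, R.S.zero_mem, W.zero_mem, hm, hr⟩
  have hmax : ∃ l, P l ∧ ∀ l', P l' → A.valuation l' ≤ A.valuation l := by
    have hg1 := fun h => R.exists_greatest_scale harch hg₁ hB0 (fun l hl => hB l (hP₁ l hl)) hv₁ h
    have hg2 := fun h => R.exists_greatest_scale harch hg₂ hB0 (fun l hl => hB l (hP₂ l hl)) hv₂ h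
    by_cases e₁ : ∃ l, P₁ l <;> by_cases e₂ : ∃ l, P₂ l
    · obtain ⟨l₁, hl₁, m₁⟩ := hg1 e₁
      obtain ⟨l₂, hl₂, m₂⟩ := hg2 e₂
      rcases le_total (A.valuation l₁) (A.valuation l₂) with h | h
      · exact ⟨l₂, hP₂ _ hl₂, fun l' hl' => (hor l' hl').elim (fun q => (m₁ l' q).trans h) (m₂ l')⟩
      · exact ⟨l₁, hP₁ _ hl₁, fun l' hl' => (hor l' hl').elim (m₁ l') (fun q => (m₂ l' q).trans h)⟩
    · obtain ⟨l₁, hl₁, m₁⟩ := hg1 e₁
      exact ⟨l₁, hP₁ _ hl₁,
        fun l' hl' => (hor l' hl').elim (m₁ l') (fun q => absurd ⟨l', q⟩ e₂)⟩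
    · obtain ⟨l₂, hl₂, m₂⟩ := hg2 e₂
      exact ⟨l₂, hP₂ _ hl₂,
        fun l' hl' => (hor l' hl').elim (fun q => absurd ⟨l', q⟩ e₁) (m₂ l')⟩
    · obtain ⟨l, hl⟩ := hex
      exact ((hor l hl).elim (fun q => e₁ ⟨l, q⟩) (fun q => e₂ ⟨l, q⟩)).elim
  obtain ⟨l, ⟨x, hxS, hxW, hm, hne⟩, hlmax⟩ := hmax
  have hyS : w + x ∈ R.S := R.S.add_mem hw hxS
  have hl0 : l ≠ 0 := fun h => hne (Prod.ext
    (by show C.b₁.red (g.1 * l) (w + x) = 0; rw [h, mul_zero]; exact C.b₁.red_zero_scale _)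
    (by show C.b₂.red (g.2 * l) (w + x) = 0; rw [h, mul_zero]; exact C.b₂.red_zero_scale _))
  obtain ⟨x', hx'S, hx'W, hx'm, hx'r⟩ := R.exists_match hg₁ hg₂ hyS hl0 hm hne
    (ih (hno (w + x) hyS (W'.add_mem hwW' (hsub hxW)) l hm))
  have hne' := hbase (x - x') (R.S.sub_mem hxS hx'S) (W.sub_mem hxW hx'W)
  obtain ⟨l', hl'0, hm', hr'⟩ := exists_scale (C := C) hg₁ hg₂ hne'
  have hle := hlmax l' ⟨x - x', R.S.sub_mem hxS hx'S, W.sub_mem hxW hx'W, hm', hr'⟩
  have hsm : C.Mem (g * (l, l)) (w + (x - x')) := by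
    rw [add_sub]; exact hm.sub hx'm
  have hs0 : C.red (g * (l, l)) (w + (x - x')) = 0 := by
    rw [add_sub, red_sub hm hx'm, hx'r, sub_self]
  apply hr'
  refine Prod.ext ?_ ?_
  · have hle₁ : A.valuation (g.1 * l') ≤ A.valuation (g.1 * l) := by
      rw [map_mul, map_mul]; exact mul_le_mul' le_rfl hle
    show C.b₁.red (g.1 * l') _ = 0
    rw [C.b₁.red_eq_smul_of_le (mul_ne_zero hg₁ hl0) hle₁ hsm.1,
      show C.b₁.red (g.1 * l) (w + (x - x')) = 0 from congrArg Prod.fst hs0, smul_zero]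
  · have hle₂ : A.valuation (g.2 * l') ≤ A.valuation (g.2 * l) := by
      rw [map_mul, map_mul]; exact mul_le_mul' le_rfl hle
    show C.b₂.red (g.2 * l') _ = 0
    rw [C.b₂.red_eq_smul_of_le (mul_ne_zero hg₂ hl0) hle₂ hsm.2,
      show C.b₂.red (g.2 * l) (w + (x - x')) = 0 from congrArg Prod.snd hs0, smul_zero]

theorem resSub_le_span_gens (harch : Arch π) {g : L × L} (hg₁ : g.1 ≠ 0) (hg₂ : g.2 ≠ 0)
    (t : Finset F) : (t : Set F) ⊆ R.S →
      C.resSub g (Submodule.span L (t : Set F)) ≤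
        Submodule.span k (R.gens g (Submodule.span L (t : Set F))) := by
  classical
  induction t using Finset.induction_on with
  | empty =>
    intro _
    rintro _ ⟨u, hu, -, rfl⟩
    rw [Finset.coe_empty, Submodule.span_empty, Submodule.mem_bot] at hu
    rw [hu, C.red_zero]
    exact zero_mem _
  | insert w t _ ih =>
    intro hsub
    rw [Finset.coe_insert, Set.insert_subset_iff] at hsub
    rw [Finset.coe_insert]
    by_cases hwt : w ∈ Submodule.span L (t : Set F)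
    · rw [Submodule.span_insert_eq_span hwt]
      exact ih hsub.2
    · exact R.span_gens_step harch hg₁ hg₂ t hsub.1 hwt (ih hsub.2)

/-- The reductions of a rationally spanned space are spanned by those of rational functions. -/
theorem le_span_gens (harch : Arch π) {V : Submodule L F} [FiniteDimensional L V]
    (hV : V ≤ Submodule.span L ((R.S : Set F) ∩ V)) {g : L × L} (hg₁ : g.1 ≠ 0) (hg₂ : g.2 ≠ 0) :
    C.resSub g V ≤ Submodule.span k (R.gens g V) := by
  classical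
  have hVeq : Submodule.span L ((R.S : Set F) ∩ V) = V :=
    le_antisymm (Submodule.span_le.mpr Set.inter_subset_right) hV
  obtain ⟨t, hts, ht⟩ := (Submodule.fg_span_iff_fg_span_finset_subset _).mp
    (show (Submodule.span L ((R.S : Set F) ∩ V)).FG by
      rw [hVeq]; exact Module.Finite.iff_fg.mp inferInstance)
  rw [hVeq] at ht
  have h := R.resSub_le_span_gens harch hg₁ hg₂ t (fun x hx => (hts hx).1)
  rwa [← ht] at h

end RatForm

end PairReduction

end FLTAgent.Semistable
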