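import Fermat.Agent.SemistableNodes.NodeCount
import Fermat.Agent.SemistableNodes.RatForm

/-!
# Extremal rational functions

`exists_rational_exact`: at a critical pair of scales some rational function reaches the
extremal orders exactly on both branches.  Used to read off slopes in
`SemistableSplit.SlopeCongr`.
-/

set_option autoImplicit false

noncomputable section

open AlgebraicCurve FLTAgent.FFRiemannRoch FLTAgent.FFBasic

namespace FLTAgent.Semistable

variable {L k : Type*} [Field L] [Field k] {A : ValuationSubring L} {π : A →+* k}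
variable {F F₁ F₂ : Type*} [Field F] [Field F₁] [Field F₂]
  [Algebra L F] [Algebra k F₁] [Algebra k F₂] {ι : Type*} [Fintype ι]
variable [IsAlgClosed k] [IsFunctionField k F₁] [IsFunctionField k F₂]
  [IsAlgClosed L] [IsFunctionField L F]

namespace PairReduction.TorsionData

variable {C : PairReduction A π F F₁ F₂ ι} {m : ℕ}

/-- A rational function with exact orders at a node on both branches when `b m`
divides the bound. -/
theorem exists_rational_exact (T : C.TorsionData m) (U : NodeUnit C) (R : RatForm C)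
    (harch : Arch π) [NeZero m]
    (hspan : ∀ n₀ : ℕ, ∃ n, n₀ ≤ n ∧ riemannRochSpace (T.D + n • C.E) ≤
      Submodule.span L ((R.S : Set F) ∩ riemannRochSpace (T.D + n • C.E)))
    {b : ℕ} (hb : 0 < b) {z : ℤ} {s : ι} (h : ((b * m : ℕ) : ℤ) ∣ T.low₁ U b z s) :
    ∃ (n : ℕ) (g : L × L) (y : F), g.1 ≠ 0 ∧ g.2 ≠ 0 ∧ T.Balanced U g b z ∧ y ∈ R.S ∧
      y ∈ riemannRochSpace (T.D + n • C.E) ∧ C.Mem g y ∧
      ((C.red g y).1 ≠ 0 ∧
        ((b * m : ℕ) : ℤ) * (C.node₁ s).ord (C.red g y).1 = T.low₁ U b z s) ∧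
      ((C.red g y).2 ≠ 0 ∧
        ((b * m : ℕ) : ℤ) * (C.node₂ s).ord (C.red g y).2 = T.low₂ U b z s) := by
  have hm := NeZero.pos m
  obtain ⟨g, hg₁, hg₂, hbal⟩ := T.exists_balanced U hm hb z
  obtain ⟨n₀, hn₀⟩ := T.exists_exact U harch hb z
  obtain ⟨n, hn, hle⟩ := hspan n₀
  obtain ⟨u, hu, hug, hu₁, -⟩ := (hn₀ n hn s).2 h g hg₁ hg₂ hbal
  obtain ⟨a₀, ha₀⟩ := h
  have hD : (0 : ℤ) < ((b * m : ℕ) : ℤ) := by exact_mod_cast Nat.mul_pos hb hm
  have hbal' : ∀ l : L, T.Balanced U (g * (l, l)) b z := fun l => by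
    have hv : A.valuation ((g.2 ^ m * T.c.2) ^ b)
        = A.valuation ((g.1 ^ m * T.c.1) ^ b * U.Q ^ z) := hbal
    show A.valuation (((g.2 * l) ^ m * T.c.2) ^ b)
      = A.valuation (((g.1 * l) ^ m * T.c.1) ^ b * U.Q ^ z)
    rw [show ((g.2 * l) ^ m * T.c.2) ^ b = (l ^ m) ^ b * (g.2 ^ m * T.c.2) ^ b by
        rw [← mul_pow]; ring,
      show ((g.1 * l) ^ m * T.c.1) ^ b * U.Q ^ z
          = (l ^ m) ^ b * ((g.1 ^ m * T.c.1) ^ b * U.Q ^ z) by
        rw [← mul_assoc, ← mul_pow]; ring, map_mul, hv, ← map_mul]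
  by_contra hno
  let M : Submodule k (F₁ × F₂) :=
    (ball (C.node₁ s) (-(a₀ + 1))).comap (LinearMap.fst k F₁ F₂)
  have hgen : Submodule.span k (R.gens g (riemannRochSpace (T.D + n • C.E))) ≤ M := by
    refine Submodule.span_le.mpr ?_
    rintro _ ⟨y, hyS, hyV, l, hm', rfl⟩
    show (C.red (g * (l, l)) y).1 ∈ ball (C.node₁ s) (-(a₀ + 1))
    rcases eq_or_ne (C.red (g * (l, l)) y).1 0 with h0 | h0
    · rw [h0]; exact Submodule.zero_mem _
    have hl : l ≠ 0 := fun hl => h0 (by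
      show C.b₁.red (g.1 * l) y = 0
      rw [hl, mul_zero]; exact C.b₁.red_zero_scale y)
    have hgl₁ : (g * (l, l)).1 ≠ 0 := mul_ne_zero hg₁ hl
    have hgl₂ : (g * (l, l)).2 ≠ 0 := mul_ne_zero hg₂ hl
    obtain ⟨hge, -, hiff⟩ := T.node_bounds U hm hb hgl₁ hgl₂ (hbal' l) hyV hm' s
    have hne : ((b * m : ℕ) : ℤ) * (C.node₁ s).ord (C.red (g * (l, l)) y).1 ≠ T.low₁ U b z s :=
      fun he => hno ⟨n, g * (l, l), y, hgl₁, hgl₂, hbal' l, hyS, hyV, hm', ⟨h0, he⟩,
        hiff.mp ⟨h0, he⟩⟩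
    have hlt := lt_of_le_of_ne (hge h0) (Ne.symm hne)
    rw [ha₀] at hlt
    refine (mem_ball_iff_ord _).mpr (Or.inr ?_)
    have := (mul_lt_mul_iff_right₀ hD).mp hlt
    omega
  have := hgen (R.le_span_gens harch hle hg₁ hg₂ ⟨u, hu, hug, rfl⟩)
  have h2 := ((mem_ball_iff_ord _).mp (Submodule.mem_comap.mp this)).resolve_left hu₁.1
  have h3 := hu₁.2
  rw [ha₀] at h3
  have h4 := mul_left_cancel₀ hD.ne' h3
  simp only [LinearMap.fst_apply] at h2
  omega

end PairReduction.TorsionData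

end FLTAgent.Semistable
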