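import Fermat.Agent.SemistableNodes.NodeCount
import Fermat.Agent.Semistable.Transport
import Fermat.Agent.SemistableHecke.FixedClasses
import Mathlib.RingTheory.RootsOfUnity.PrimitiveRoots

/-!
# The tame character of an automorphism acting trivially on residues

`ActsTrivially.chi` is the character `l ↦ τ l / l` on residues.  `exists_comparison` and
`red_comparison` compare a fixed torsion class with its transform through a function whose
reductions are constants.  Used in the tame case of the principle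
(`SemistableFinals.PrincipleTame`).
-/

set_option autoImplicit false

noncomputable section

open AlgebraicCurve FLTAgent.FFRiemannRoch FLTAgent.FFBasic

namespace FLTAgent.Semistable

variable {L k : Type*} [Field L] [Field k] {A : ValuationSubring L} {π : A →+* k}

section Chi

/-- An automorphism of the constants keeping the valuation and acting trivially on residues. -/
structure ActsTrivially (π : A →+* k) (τ : L ≃+* L) : Prop where
  valuation_eq : ∀ l : L, A.valuation (τ l) = A.valuation l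
  π_eq : ∀ a b : A, (b : L) = τ (a : L) → π b = π a

variable {τ : L ≃+* L} (hτ : ActsTrivially π τ)

include hτ in
theorem ActsTrivially.div_mem (l : L) : τ l / l ∈ A := by
  rcases eq_or_ne l 0 with rfl | hl
  · rw [map_zero, div_zero]; exact A.zero_mem
  · exact div_mem_of_valuation_le hl (hτ.valuation_eq l).le

/-- The residue of `τ l / l`. -/
def ActsTrivially.chi (l : L) : k := π ⟨τ l / l, hτ.div_mem l⟩

theorem ActsTrivially.chi_mul (x y : L) : hτ.chi (x * y) = hτ.chi x * hτ.chi y := by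
  rw [chi, chi, chi, ← map_mul]
  exact congrArg π (Subtype.ext (by push_cast [map_mul]; rw [mul_div_mul_comm]))

theorem ActsTrivially.chi_one : hτ.chi 1 = 1 := by
  rw [chi, ← map_one π]
  exact congrArg π (Subtype.ext (by simp))

theorem ActsTrivially.chi_ne_zero {l : L} (hl : l ≠ 0) : hτ.chi l ≠ 0 :=
  π_ne_zero_of_eq_one (by
    rw [map_div₀, hτ.valuation_eq, div_self ((Valuation.ne_zero_iff _).mpr hl)])

theorem ActsTrivially.chi_pow (x : L) (n : ℕ) : hτ.chi (x ^ n) = hτ.chi x ^ n := by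
  induction n with
  | zero => rw [pow_zero, pow_zero, hτ.chi_one]
  | succ n ih => rw [pow_succ, pow_succ, hτ.chi_mul, ih]

theorem ActsTrivially.chi_inv (x : L) : hτ.chi x⁻¹ = (hτ.chi x)⁻¹ := by
  rcases eq_or_ne x 0 with rfl | hx
  · have : hτ.chi 0 = 0 := by
      rw [chi, ← map_zero π]
      exact congrArg π (Subtype.ext (by simp))
    rw [inv_zero, this, inv_zero]
  refine eq_inv_of_mul_eq_one_left ?_
  rw [← hτ.chi_mul, inv_mul_cancel₀ hx, hτ.chi_one]

theorem ActsTrivially.chi_zpow (x : L) : ∀ n : ℤ, hτ.chi (x ^ n) = hτ.chi x ^ n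
  | (n : ℕ) => by rw [zpow_natCast, zpow_natCast, hτ.chi_pow]
  | .negSucc n => by rw [zpow_negSucc, zpow_negSucc, hτ.chi_inv, hτ.chi_pow]

theorem ActsTrivially.chi_eq_one {l : L} (hl : A.valuation l = 1) : hτ.chi l = 1 := by
  have hlA : l ∈ A := (A.valuation_le_one_iff l).mp hl.le
  have hl0 : l ≠ 0 := fun h => by simp [h] at hl
  have hτA : τ l ∈ A := (A.valuation_le_one_iff _).mp ((hτ.valuation_eq l).trans hl).le
  have h := congrArg π (show (⟨τ l / l, hτ.div_mem l⟩ : A) * ⟨l, hlA⟩ = ⟨τ l, hτA⟩ from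
    Subtype.ext (div_mul_cancel₀ _ hl0))
  rw [map_mul, hτ.π_eq ⟨l, hlA⟩ ⟨τ l, hτA⟩ rfl] at h
  exact (mul_eq_right₀ (π_ne_zero_of_eq_one hl)).mp h

theorem ActsTrivially.chi_eq_of_valuation_eq {x y : L} (hy : y ≠ 0)
    (h : A.valuation x = A.valuation y) : hτ.chi x = hτ.chi y := by
  have := hτ.chi_mul y (x / y)
  have h1 : A.valuation (x / y) = 1 := by
    rw [map_div₀, h, div_self ((Valuation.ne_zero_iff _).mpr hy)]
  rw [mul_div_cancel₀ _ hy, hτ.chi_eq_one h1, mul_one] at this
  exact this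

end Chi

variable {F F₁ F₂ : Type*} [Field F] [Field F₁] [Field F₂]
  [Algebra L F] [Algebra k F₁] [Algebra k F₂] {ι : Type*} [Fintype ι]
variable [IsAlgClosed k] [IsFunctionField k F₁] [IsFunctionField k F₂]
  [IsAlgClosed L] [IsFunctionField L F]

namespace PairReduction

variable {C : PairReduction A π F F₁ F₂ ι} {m : ℕ}

omit [Fintype ι] [IsFunctionField k F₁] [IsFunctionField k F₂] [IsAlgClosed L]
  [IsFunctionField L F] in
/-- An element of exponent `m` up to constants in one reduction is itself constant. -/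
theorem exists_const_of_pow {G : Type*} [Field G] [Algebra k G] [IsFunctionField k G] (hm : 0 < m)
    {β : G} {a : k} (h : β ^ m = algebraMap k G a) : ∃ c : k, algebraMap k G c = β :=
  exists_eq_algebraMap_of_isIntegral
    (IsIntegral.of_pow hm (h ▸ isIntegral_algebraMap))

namespace TorsionData

omit [IsAlgClosed k] [IsFunctionField k F₁] [IsFunctionField k F₂] in
/-- The comparison function of a class fixed by a morphism. -/
theorem exists_comparison (T : C.TorsionData m) (Φ : Morph C C) (hm : 0 < m)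
    (hfix : Φ.g • T.cls = T.cls) :
    ∃ v : F, v ≠ 0 ∧ (∀ P : Place L F, P.ord v = (Φ.g • T.D) P - T.D P) ∧
      Φ.g • T.f = T.f * v ^ m := by
  have h : T.cls = (Φ.mapData T).cls := by rw [Φ.cls_mapData, hfix]
  obtain ⟨h0, hh0, hh⟩ : ∃ h0 : F, h0 ≠ 0 ∧
      ∀ v : Place L F, (Φ.g • T.D) v - T.D v = v.ord h0 := by
    have := (QuotientAddGroup.eq.mp h : _)
    rw [AddSubgroup.mem_addSubgroupOf] at this
    obtain ⟨h0, hh0, hh⟩ := this
    exact ⟨h0, hh0, fun v => by
      rw [← hh v]
      show (Φ.g • T.D) v - T.D v = (-T.D + Φ.g • T.D : Divisor L F) v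
      simp [sub_eq_neg_add]⟩
  obtain ⟨lam, hlam⟩ : ∃ lam : L, algebraMap L F lam = Φ.g • T.f / (T.f * h0 ^ m) := by
    refine exists_eq_algebraMap_of_isIntegral (IsAlgebraic.isIntegral
      (isAlgebraic_iff_forall_ord_eq_zero.mpr fun v => ?_))
    rw [div_eq_mul_inv, v.ord_mul (Φ.smul_ne T.f_ne)
        (inv_ne_zero (mul_ne_zero T.f_ne (pow_ne_zero m hh0))),
      v.ord_inv, v.ord_mul T.f_ne (pow_ne_zero m hh0), ← zpow_natCast, v.ord_zpow, ← T.div_eq,
      ← Φ.div_map T.div_eq, ← hh v]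
    ring
  obtain ⟨r, hr⟩ := IsAlgClosed.exists_pow_nat_eq lam hm
  have hlam0 : lam ≠ 0 := fun h0' => by
    rw [h0', map_zero] at hlam
    exact div_ne_zero (Φ.smul_ne T.f_ne) (mul_ne_zero T.f_ne (pow_ne_zero m hh0)) hlam.symm
  have hr0 : r ≠ 0 := fun h0' => hlam0 (by rw [← hr, h0', zero_pow hm.ne'])
  refine ⟨r • h0, smul_ne_zero hr0 hh0, fun P => by
    rw [FFBasic.ord_smul_const P hr0, hh P], ?_⟩
  rw [smul_pow, hr, mul_smul_comm, Algebra.smul_def, hlam,
    div_mul_cancel₀ _ (mul_ne_zero T.f_ne (pow_ne_zero m hh0))]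

omit [Fintype ι] [IsFunctionField k F₁] [IsFunctionField k F₂] [IsAlgClosed L]
  [IsFunctionField L F] in
/-- The comparison function reduces to a constant. -/
theorem red_comparison {Fb : Type*} [Field Fb] [Algebra k Fb] [IsFunctionField k Fb]
    (B : Branch A π F Fb) (hπ : Function.Surjective π) (hm : 0 < m) {f f' v : F} {c c' : L}
    (hv0 : v ≠ 0) (he : f' = f * v ^ m) (hc : B.Mem c f) (hr : B.red c f ≠ 0) (hc' : B.Mem c' f')
    (heq : B.red c' f' = B.red c f) (hcc : A.valuation c' = A.valuation c) :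
    B.Mem 1 v ∧ ∃ δ : k, δ ≠ 0 ∧ B.red 1 v = algebraMap k Fb δ := by
  obtain ⟨d, hd, hdm, hdr⟩ := B.exists_red_ne_zero hv0
  have h1 : B.Mem (c * d ^ m) f' := he ▸ Branch.Mem.mul B hc (Branch.Mem.pow B hdm m)
  have h2 : B.red (c * d ^ m) f' ≠ 0 := by
    rw [he, B.red_mul hc (Branch.Mem.pow B hdm m), B.red_pow hdm]
    exact mul_ne_zero hr (pow_ne_zero m hdr)
  have hc0 : c ≠ 0 := B.scale_ne_zero hr
  have h3 := B.valuation_eq_of_red_ne_zero hπ h1 h2 hc' (heq ▸ hr)
  rw [hcc, map_mul, map_pow, mul_eq_left₀ ((Valuation.ne_zero_iff _).mpr hc0),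
    pow_eq_one_iff_of_nonneg zero_le hm.ne'] at h3
  have hv1 : A.valuation (1 : L) = A.valuation d := by rw [map_one, h3]
  have hmv := B.mem_of_le hd hv1.le hdm
  have hne := B.red_ne_zero_of_eq hd hv1 hdm hdr
  refine ⟨hmv, ?_⟩
  have h4 : B.Mem c f' := by
    have := Branch.Mem.mul B hc (Branch.Mem.pow B hmv m)
    rwa [one_pow, mul_one, ← he] at this
  have h5 : B.red c f' = B.red c f * B.red 1 v ^ m := by
    have := B.red_mul hc (Branch.Mem.pow B hmv m)
    rwa [B.red_pow hmv, one_pow, mul_one, ← he] at this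
  have h6 := B.red_eq_smul_of_le (B.scale_ne_zero (heq ▸ hr)) hcc.ge hc'
  rw [h5, Algebra.smul_def] at h6
  simp only [heq] at h6
  rw [mul_comm (algebraMap k Fb _)] at h6
  obtain ⟨δ, hδ⟩ := exists_const_of_pow hm (mul_left_cancel₀ hr h6)
  exact ⟨δ, fun h0 => hne (by rw [← hδ, h0, map_zero]), hδ.symm⟩

end TorsionData

end PairReduction

end FLTAgent.Semistable
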